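/-
Fermat/Agent/AV/PicBridge84/Scheme.lean  (helper84)

Programme AV (S26 + S27), brick F2 (`Pic0 K F = J_C(K)`), file 7 = F2b, the scheme side:
for a scheme `D'` representing THE cut `cut41 D` of the relative Picard functor of a two-chart
curve `cc : CurveCharts c ε` over an algebraically closed field `k` (as produced by the S25
stack), with the group law `law h` transported from the class group law `groupLaw41 D`,

* `toPic h : J(k) → PicQ (cc.chartA k)` is an injective group homomorphism onto the classes of
  Euler characteristic `χ(O)`;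
* `law h` is commutative;
* `isTorsionPoint_iff : (law h).IsTorsionPoint (𝟙 _) n x ↔ toPic h x ^ n = 1`;
* `card_torsionPoint_eq : #J(k)[n] = #{η : PicQ (cc.chartA k) | η ^ n = 1}` for `0 < n`.
-/
import Mathlib
import Fermat.Prelude.Def_GoodReductionJacobian_RelativeGroupLawKernel
import Fermat.Agent.Jac.FinalWiring41d
import Fermat.Agent.Jac.BridgeK84Final

set_option autoImplicit false
set_option linter.unusedSectionVars false
set_option linter.style.haveILetI false

noncomputable section

universe u

open CategoryTheory CategoryTheory.Limits AlgebraicGeometry AlgebraicGeometry.RelPicard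
  NeronModelInfra GoodReductionJacobian TensorProduct

namespace Fermat.Agent.AV.PicBridge84.SchemeSide

open scoped Fermat.Agent.Jac.BaseChange75
open Fermat.Agent.Jac Fermat.Agent.Jac.PointsBridge79 Fermat.Agent.Jac.PointsBridge79Shell
  Fermat.Agent.Jac.AbelJacobi73 Fermat.Agent.Jac.BridgeK84 Fermat.Agent.Jac.BridgeK84Final
  Fermat.Agent.Jac.FinalWiring41 Fermat.Agent.Jac.AffGroup79

/-! ### Complements on `AffGroup79.AffineGroupLaw` -/

section AffineLaw

variable {R : Type u} [CommRing R] {J : Scheme.{u}} {f : J ⟶ Spec (CommRingCat.of R)}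
  (G : AffineGroupLaw R f)

/-- On affine test schemes the unit of the extended law is the given one. -/
theorem toRelativeGroupLaw_one_affine {B : CommRingCat.{u}}
    (t : Spec B ⟶ Spec (CommRingCat.of R)) : G.toRelativeGroupLaw.one t = G.one t := by
  apply Subtype.ext
  have h := G.comp_oneExt t (𝟙 (Spec B))
  rw [Category.id_comp] at h
  exact h.trans (G.one_val_congr (Category.id_comp t))

/-- On affine test schemes the multiples for the extended law are the powers in the point
group. -/
theorem toRelativeGroupLaw_nsmul_affine {B : CommRingCat.{u}}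
    (t : Spec B ⟶ Spec (CommRingCat.of R)) (n : ℕ) (x : SchemeHomOver t f) :
    G.toRelativeGroupLaw.nsmul t n x = (letI := G.pointGroup t; x ^ n) := by
  letI := G.pointGroup t
  induction n with
  | zero =>
    rw [RelativeGroupLaw.nsmul_zero, toRelativeGroupLaw_one_affine, pow_zero]
    rfl
  | succ n ih =>
    rw [RelativeGroupLaw.nsmul_succ, AffineGroupLaw.toRelativeGroupLaw_mul_affine, ih, pow_succ]
    rfl

/-- A commutative affine group law extends to a commutative relative group law. -/
theorem isCommutative_toRelativeGroupLaw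
    (hc : ∀ {B : CommRingCat.{u}} (t : Spec B ⟶ Spec (CommRingCat.of R))
      (x y : SchemeHomOver t f), G.mul t x y = G.mul t y x) :
    G.toRelativeGroupLaw.IsCommutative := by
  intro T t x y
  apply AffineGroupLaw.ext_of_res' t
  intro B ψ
  show AffineGroupLaw.res t ψ (G.mulExt t x y) = AffineGroupLaw.res t ψ (G.mulExt t y x)
  rw [AffineGroupLaw.res_mulExt, AffineGroupLaw.res_mulExt, hc]

end AffineLaw

/-! ### Torsion classes have the Euler characteristic of `O` -/

section Chi

variable {K R0 R1 R01 : Type u} [Field K] [CommRing R0] [CommRing R1] [CommRing R01]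
  [Algebra K R0] [Algebra K R1] [Algebra K R01] [Algebra R0 R01] [Algebra R1 R01]
  [IsScalarTower K R0 R01] [IsScalarTower K R1 R01]
  [IsDedekindDomain R0] [IsDedekindDomain R1] [IsDomain R01] {c : TwoChart K R0 R1 R01}

theorem chiQ_eq_of_pow_eq_one (H : CurveHyp c) {P0 : LineOps39.IdealPair R0 R1 R01}
    (hP0 : IsRatPointPair c P0) {η : PicQ c} {n : ℕ} (hn : 0 < n) (hη : η ^ n = 1) :
    chiQ c η = chiQ c 1 := by
  obtain ⟨d, hd⟩ := H.exists_hasDeg hP0 η
  have h1 := (hd.pow c n).chiQ_eq c
  rw [hη] at h1
  have h2 : (n : ℤ) * d = 0 := by linarith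
  have h3 : d = 0 := by
    rcases mul_eq_zero.1 h2 with h | h
    · exact absurd h (by exact_mod_cast hn.ne')
    · exact h
  rw [hd.chiQ_eq c, h3, add_zero]

end Chi

/-! ### The `k`-points of the Jacobian and the Picard group of the two-chart ring -/

section Jacobian

variable {k : Type u} [Field k] [IsAlgClosed k] {C : Scheme.{u}}
  {c : C ⟶ Spec (CommRingCat.of k)} {ε : SchemeHomOver (𝟙 (Spec (CommRingCat.of k))) c}
  [IsIntegral C] {cc : CurveCharts c ε} {D : AffineDictionary cc}
  {D' : RelativePic0Designation k c} (h : RepresentsRelSubPic c ε (cut41 D) D')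

/-- The group law on the points of a scheme representing THE cut, with values in affine
schemes. -/
def affLaw : AffineGroupLaw k D'.toBase := affineGroupLaw h (groupLaw41 D)

/-- **The group law of the Jacobian** (the one of the S25 stack). -/
def law : RelativeGroupLaw k D'.toBase := (affLaw h).toRelativeGroupLaw

/-- The `k`-points of the Jacobian. -/
abbrev Pt (D' : RelativePic0Designation k c) : Type u :=
  SchemeHomOver (𝟙 (Spec (CommRingCat.of k))) D'.toBase

/-- The class in `PicQ (cc.chartA k)` of a `k`-point of the Jacobian. -/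
def toPic (x : Pt D') : PicQ (cc.chartA k) :=
  betaPt D (hFP cc) (Q41 cc D) (pointClass h (𝟙 _) x)

theorem toPic_injective : Function.Injective (toPic h) :=
  (betaPt_injective D (hFP cc) (Q41 cc D)).comp (pointsEquiv h (𝟙 _)).injective

theorem toPic_mul (x y : Pt D') :
    toPic h ((affLaw h).mul (𝟙 _) x y) = toPic h x * toPic h y := by
  show betaPt D (hFP cc) (Q41 cc D) (pointClass h (𝟙 _) (classPoint h (𝟙 _) _)) = _
  rw [pointClass_classPoint]
  exact betaPt_mul D (hFP cc) (Q41 cc D) _ _

theorem toPic_one : toPic h ((affLaw h).one (𝟙 _)) = 1 := by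
  have h1 := toPic_mul h ((affLaw h).one (𝟙 _)) ((affLaw h).one (𝟙 _))
  rw [(affLaw h).one_mul] at h1
  exact (mul_eq_left.1 h1.symm)

/-- `toPic` as a homomorphism from the group of `k`-points. -/
def toPicHom :
    letI := (affLaw h).pointGroup (𝟙 (Spec (CommRingCat.of k)))
    Pt D' →* PicQ (cc.chartA k) :=
  letI := (affLaw h).pointGroup (𝟙 (Spec (CommRingCat.of k)))
  { toFun := toPic h
    map_one' := toPic_one h
    map_mul' := toPic_mul h }

theorem toPic_nsmul (n : ℕ) (x : Pt D') :
    toPic h ((law h).nsmul (𝟙 _) n x) = toPic h x ^ n := by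
  letI := (affLaw h).pointGroup (𝟙 (Spec (CommRingCat.of k)))
  show toPic h ((affLaw h).toRelativeGroupLaw.nsmul (𝟙 _) n x) = _
  rw [toRelativeGroupLaw_nsmul_affine]
  exact map_pow (toPicHom h) x n

theorem toPic_law_one : toPic h ((law h).one (𝟙 _)) = 1 := by
  show toPic h ((affLaw h).toRelativeGroupLaw.one (𝟙 _)) = 1
  rw [toRelativeGroupLaw_one_affine, toPic_one]

theorem toPic_law_mul (x y : Pt D') :
    toPic h ((law h).mul (𝟙 _) x y) = toPic h x * toPic h y := by
  show toPic h ((affLaw h).toRelativeGroupLaw.mul (𝟙 _) x y) = _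
  rw [AffineGroupLaw.toRelativeGroupLaw_mul_affine, toPic_mul]

theorem chiQ_toPic (x : Pt D') : chiQ (cc.chartA k) (toPic h x) = chiQ (cc.chartA k) 1 :=
  chiQ_betaPt D (hFP cc) (Q41 cc D) _

theorem exists_toPic_eq (η : PicQ (cc.chartA k))
    (hη : chiQ (cc.chartA k) η = chiQ (cc.chartA k) 1) : ∃ x : Pt D', toPic h x = η := by
  obtain ⟨ξ, hξ⟩ := exists_betaPt_eq D (hFP cc) (Q41 cc D) η hη
  exact ⟨classPoint h (𝟙 _) ξ, by rw [toPic, pointClass_classPoint, hξ]⟩

/-- **`n`-torsion points of the Jacobian = `n`-torsion classes.** -/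
theorem isTorsionPoint_iff (n : ℕ) (x : Pt D') :
    (law h).IsTorsionPoint (𝟙 _) n x ↔ toPic h x ^ n = 1 := by
  rw [RelativeGroupLaw.isTorsionPoint_def, ← toPic_nsmul, ← toPic_law_one h]
  exact (toPic_injective h).eq_iff.symm

/-- The group law of the Jacobian is commutative. -/
theorem isCommutative_law : (law h).IsCommutative := by
  apply isCommutative_toRelativeGroupLaw
  intro B t x y
  show classPoint h t ((groupLaw41 D).mul t _ _) = classPoint h t ((groupLaw41 D).mul t _ _)
  congr 1
  show (JGroup85Std.gEquiv _ _ _ t).symm (_ * _) = (JGroup85Std.gEquiv _ _ _ t).symm (_ * _)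
  congr 1
  exact Subtype.ext (mul_comm _ _)

/-- **F2b.** The number of `n`-torsion `k`-points of the Jacobian is the number of `n`-torsion
classes in the Picard group of the two-chart ring `cc.chartA k`. -/
theorem card_torsionPoint_eq {n : ℕ} (hn : 0 < n) :
    Nat.card {x : Pt D' // (law h).IsTorsionPoint (𝟙 _) n x} =
      Nat.card {η : PicQ (cc.chartA k) // η ^ n = 1} := by
  haveI := isDedekindDomain_KB0 cc k Function.bijective_id
  haveI := isDedekindDomain_KB1 cc k Function.bijective_id
  haveI := isDomain_KB01 cc k Function.bijective_id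
  have H : CurveHyp (cc.chartA k) := curveHypK cc k Function.bijective_id
  refine Nat.card_congr (Equiv.ofBijective
    (fun x => ⟨toPic h x.1, (isTorsionPoint_iff h n x.1).1 x.2⟩) ⟨?_, ?_⟩)
  · intro x y hxy
    exact Subtype.ext (toPic_injective h (congrArg Subtype.val hxy))
  · rintro ⟨η, hη⟩
    obtain ⟨x, hx⟩ := exists_toPic_eq h η
      (chiQ_eq_of_pow_eq_one H (CurveHyp80.isRatPointPair_P0K cc k) hn hη)
    exact ⟨⟨x, (isTorsionPoint_iff h n x).2 (by rw [hx]; exact hη)⟩, Subtype.ext hx⟩

end Jacobian

end Fermat.Agent.AV.PicBridge84.SchemeSide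

end
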