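/-
Fermat/Agent/AV/PicBridge84/Jacobian.lean  (helper84)

Programme AV (S26 + S27), brick F2 / F5 support: **the S25 stack with the representation of THE
cut exposed.**

`Fermat.Agent.S25` only states the existence of a scheme representing the frozen cut
`algEquivZeroCut c ε`.  The torsion count F2 (`ModelGlue.card_torsion_eq_card_torsionPoint`) and
the group law (`SchemeSide.law`) need a representation of the Euler-characteristic cut
`cut41 (dict41 cc)`.  This file provides

* `exists_jacobian cc` : the Jacobian `D'` of the S25 stack TOGETHER with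
  `h : RepresentsRelSubPic c ε (cut41 (dict41 cc)) D'`, its properties (locally of finite type,
  smooth, proper, geometrically connected), `FibrewiseAlgEquivZero h.poincare`, and the
  Abel-Jacobi morphism `σ : C^g ⟶ D'.P` over `k` (surjective on `k`-points, `g = genus41 cc`);
* `cut41_iff_fibrewiseAlgEquivZero` : the two cuts coincide;
* `representsCut41_of_algEquivZero` : ANY scheme representing the frozen cut `algEquivZeroCut c ε`
  (e.g. the one of `Fermat.Agent.S25.result`, or of `DimJ76.DimJStatement`) represents
  `cut41 (dict41 cc)`; so F2 applies to it.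
-/
import Mathlib
import Fermat.Agent.Jac.FinalWiring41e
import Fermat.Agent.AV.PicBridge84.Scheme

set_option autoImplicit false
set_option linter.unusedSectionVars false
set_option linter.style.haveILetI false

noncomputable section

universe u

open CategoryTheory CategoryTheory.Limits AlgebraicGeometry AlgebraicGeometry.RelPicard
  NeronModelInfra GoodReductionJacobian

namespace Fermat.Agent.AV.PicBridge84.Jacobian

open Fermat.Agent.Jac Fermat.Agent.Jac.PointsBridge79 Fermat.Agent.Jac.PointsBridge79Shell
  Fermat.Agent.Jac.FinalWiring41 Fermat.Agent.Jac.BridgeK84Final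

variable {k : Type u} [Field k] [IsAlgClosed k] {C : Scheme.{u}}
  {c : C ⟶ Spec (CommRingCat.of k)} {ε : SchemeHomOver (𝟙 (Spec (CommRingCat.of k))) c}
  [IsProper c] [SmoothOfRelativeDimension 1 c] [IsIntegral C]

/-- **The S25 stack, with the representation of THE cut exposed.** -/
theorem exists_jacobian (cc : CurveCharts c ε) :
    ∃ (D' : RelativePic0Designation k c)
      (h : RepresentsRelSubPic c ε (cut41 (dict41 cc)) D'),
      LocallyOfFiniteType D'.toBase ∧ Smooth D'.toBase ∧ IsProper D'.toBase ∧
        GeometricallyConnected D'.toBase ∧ FibrewiseAlgEquivZero h.poincare ∧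
        ∃ σ : (QShell79Power.fibrePower c (genus41 cc)).left ⟶ D'.P,
          σ ≫ D'.toBase = (QShell79Power.fibrePower c (genus41 cc)).hom ∧
            ∀ x : SchemeHomOver (𝟙 (Spec (CommRingCat.of k))) D'.toBase,
              ∃ z : Spec (CommRingCat.of k) ⟶ (QShell79Power.fibrePower c (genus41 cc)).left,
                z ≫ σ = x.1 := by
  have hc0 := ChartFPL36.chart0_finiteProjOverLine cc
  have hS : ClassesIsSheaf c ε :=
    ClassesGlue86.Main.classesIsSheaf (fun A _ _ => (dict41 cc).gamma_top A)
  obtain ⟨pkgA, hft⟩ := AlgChart76.exists_pkgA cc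
  obtain ⟨F1, H⟩ := exists_F1_H41 cc (dict41 cc)
  have hloc : IsLocalCondition (cut41 (dict41 cc)) :=
    ChiDict36.isLocalCondition_chiCut (dict41 cc) hc0
  let dict := FamDict14.famDict (dict41 cc) hc0
  let apkg := RepTransport.affineChartPackage hS dict pkgA
  let pkg := RepAffine81.chartPackageOfAffine hS (cut41 (dict41 cc)) apkg hloc
  have hlft : ∀ i, LocallyOfFiniteType (pkg.x i) :=
    RepTransport.locallyOfFiniteType_affineChartPackage_x hS dict pkgA hft
  have hl := JGroup85Law.classLifting (dict41 cc) (cut41 (dict41 cc)) (Q41 cc (dict41 cc))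
  have hF := AbelJacobi73.powerFamily_hits (groupLaw41 (dict41 cc)) F1 (genus41 cc) H
  obtain ⟨x0, hx0⟩ := hF (PClass.mk _ (𝟙 _) (RigidifiedLineBundle.unit (𝟙 _))
    ((cut41 (dict41 cc)).unit_mem _))
  obtain ⟨D', ⟨h⟩, hD⟩ :=
    FinalAssembly86.exists_represents_locallyOfFiniteType hS (cut41 (dict41 cc)) hloc pkg hlft
  have hsm : Smooth c := SmoothOfRelativeDimension.smooth 1 c
  have hgi : GeometricallyIntegral (QShell79Power.fibrePower c (genus41 cc)).hom :=
    QShell79Power.fibrePower_geometricallyIntegral c (genus41 cc)
  have hint : IsIntegral (QShell79Power.fibrePower c (genus41 cc)).left :=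
    GeometricallyIntegral.isIntegral_of_subsingleton
      (QShell79Power.fibrePower c (genus41 cc)).hom
  have hconn : ConnectedSpace (QShell79Power.fibrePower c (genus41 cc)).left := inferInstance
  have hshell := PointsBridge79Shell.smooth_isProper_geometricallyConnected h
    (groupLaw41 (dict41 cc)) hl (QShell79Power.fibrePower c (genus41 cc)).hom
    (AbelJacobi73.powerFamily (groupLaw41 (dict41 cc)) F1 (genus41 cc)) hF
  have hsep : IsSeparated D'.toBase := isSeparated_of_classGroupLaw h (groupLaw41 (dict41 cc))
  have ha : familyMap h (AbelJacobi73.powerFamily (groupLaw41 (dict41 cc)) F1 (genus41 cc)) ≫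
      D'.toBase = (QShell79Power.fibrePower c (genus41 cc)).hom := familyMap_toBase h _
  have hsurj : Surjective
      (familyMap h (AbelJacobi73.powerFamily (groupLaw41 (dict41 cc)) F1 (genus41 cc))) :=
    QShell79Proper.surjective_of_forall_rational_point D'.toBase
      (QShell79Power.fibrePower c (genus41 cc)).hom _ ha (familyMap_hits h _ hF)
  have hlft' : LocallyOfFiniteType
      (familyMap h (AbelJacobi73.powerFamily (groupLaw41 (dict41 cc)) F1 (genus41 cc)) ≫
        D'.toBase) := by rw [ha]; infer_instance
  have hgi' : GeometricallyIntegral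
      (familyMap h (AbelJacobi73.powerFamily (groupLaw41 (dict41 cc)) F1 (genus41 cc)) ≫
        D'.toBase) := by rw [ha]; infer_instance
  have hmem : FibrewiseAlgEquivZero h.poincare :=
    PoincareMem79.fibrewiseAlgEquivZero_poincare h
      (familyMap h (AbelJacobi73.powerFamily (groupLaw41 (dict41 cc)) F1 (genus41 cc))) x0.1
      (FinalShell79.comp_familyMap_eq_zeroSection h _ x0 hx0)
  exact ⟨D', h, hD, hshell.1, hshell.2.1, hshell.2.2, hmem, _, ha, familyMap_hits h _ hF⟩

/-- **The two cuts coincide**: the Euler-characteristic cut of the S25 stack is the frozen cut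
"fibrewise algebraically equivalent to zero". -/
theorem cut41_iff_fibrewiseAlgEquivZero (cc : CurveCharts c ε) {T : Scheme.{u}}
    (t : T ⟶ Spec (CommRingCat.of k)) (M : RigidifiedLineBundle c ε t) :
    (cut41 (dict41 cc)).P t M ↔ FibrewiseAlgEquivZero M := by
  constructor
  · intro hM
    obtain ⟨D', h, -, -, -, -, hmem, -⟩ := exists_jacobian cc
    exact (hmem.pullback (h.classify t M hM)).congr (h.classify_spec t M hM)
  · exact ChiDict36.chiCut_of_fibrewiseAlgEquivZero (dict41 cc)
      (ChartFPL36.chart0_finiteProjOverLine cc) t M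

/-- **Any scheme representing the frozen cut represents THE cut of the S25 stack.** -/
def representsCut41_of_algEquivZero (cc : CurveCharts c ε) {D' : RelativePic0Designation k c}
    (h0 : RepresentsRelSubPic c ε (algEquivZeroCut c ε) D') :
    RepresentsRelSubPic c ε (cut41 (dict41 cc)) D' where
  poincare := h0.poincare
  poincare_mem := (cut41_iff_fibrewiseAlgEquivZero cc _ _).2 h0.poincare_mem
  univ := fun t M hM => h0.univ t M ((cut41_iff_fibrewiseAlgEquivZero cc t M).1 hM)
  zero := h0.zero

end Fermat.Agent.AV.PicBridge84.Jacobian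

end
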