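/-
Fermat/Agent/AV/PicBridge84/Places.lean  (helper84)

Programme AV (S26 + S27), brick F2 (`Pic0 K F = J_C(K)`), file 1:
places of a function field `F / K` versus height-one primes of a Dedekind domain `B ⊆ F` with
fraction field `F`.  Built on the earlier team's `X0/FFDedekind` dictionary
(`ord_ofHeightOneSpectrum`, `centreSpec`), adding the bridge to Mathlib's
`FractionalIdeal.count`.
-/
import Mathlib
import Fermat.Prelude.Def_AlgebraicCurve_DivisorClassGroup
import Fermat.Agent.X0.FFDedekind

set_option autoImplicit false
set_option linter.unusedSectionVars false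

open AlgebraicCurve IsDedekindDomain FractionalIdeal
open scoped nonZeroDivisors

namespace Fermat.Agent.AV.PicBridge84.Places

variable {K F : Type*} [Field K] [Field F] [Algebra K F]
variable {B : Type*} [CommRing B] [IsDedekindDomain B] [Algebra B F] [IsFractionRing B F]
  [Algebra K B] [IsScalarTower K B F]

/-- The place of `F / K` attached to a height-one prime of the chart ring `B`. -/
noncomputable abbrev pl (w : HeightOneSpectrum B) : Place K F :=
  Place.ofHeightOneSpectrum (K := K) (F := F) w

/-- The valuation ring of the place `v` contains the chart ring `B`. -/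
def Contains (v : Place K F) (B : Type*) [CommRing B] [Algebra B F] : Prop :=
  ∀ b : B, algebraMap B F b ∈ v.toValuationSubring

theorem contains_pl (w : HeightOneSpectrum B) : Contains (pl (K := K) (F := F) w) B :=
  Fermat.Agent.X0.FFDedekind.algebraMap_mem_ofHeightOneSpectrum w

/-- The height-one prime of `B` under a place containing `B`. -/
noncomputable def ctr (v : Place K F) (h : Contains v B) : HeightOneSpectrum B :=
  Fermat.Agent.X0.FFDedekind.centreSpec v h

theorem pl_ctr (v : Place K F) (h : Contains v B) : pl (ctr v h) = v :=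
  Fermat.Agent.X0.FFDedekind.ofHeightOneSpectrum_centreSpec v h

theorem ctr_pl (w : HeightOneSpectrum B) :
    ctr (pl (K := K) (F := F) w) (contains_pl w) = w :=
  Fermat.Agent.X0.FFDedekind.centreSpec_ofHeightOneSpectrum w

theorem pl_injective : Function.Injective (pl (K := K) (F := F) (B := B)) :=
  Fermat.Agent.X0.FFDedekind.ofHeightOneSpectrum_injective

theorem mem_ctr_iff (v : Place K F) (h : Contains v B) (b : B) :
    b ∈ (ctr v h).asIdeal ↔
      algebraMap B F b = 0 ∨ 0 < v.ord (algebraMap B F b) := by
  rcases eq_or_ne b 0 with rfl | hb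
  · simp
  have hbF : algebraMap B F b ≠ 0 :=
    (map_ne_zero_iff _ (IsFractionRing.injective B F)).mpr hb
  rw [← Fermat.Agent.X0.FFDedekind.ord_ofHeightOneSpectrum_algebraMap_pos_iff (K := K) (F := F)
    (ctr v h) hb]
  have := pl_ctr v h
  unfold pl at this
  rw [this]
  simp [hbF]

theorem eq_ctr_iff (v : Place K F) (h : Contains v B) (w : HeightOneSpectrum B) :
    w = ctr v h ↔ pl w = v := by
  constructor
  · rintro rfl; exact pl_ctr v h
  · intro hw
    apply pl_injective (K := K) (F := F)
    rw [hw, pl_ctr]

/-- The order of `f` at the place of `w` is the `w`-adic count of the principal fractional ideal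
`(f)`. -/
theorem ord_eq_count (w : HeightOneSpectrum B) {f : F} (hf : f ≠ 0) :
    (pl (K := K) w).ord f = count F w (spanSingleton B⁰ f) := by
  obtain ⟨a, b, hb, rfl⟩ := IsFractionRing.div_surjective (A := B) f
  have hb0 : b ≠ 0 := nonZeroDivisors.ne_zero hb
  have ha0 : a ≠ 0 := by
    rintro rfl
    simp at hf
  have haF : algebraMap B F a ≠ 0 := (map_ne_zero_iff _ (IsFractionRing.injective B F)).mpr ha0
  have hbF : algebraMap B F b ≠ 0 := (map_ne_zero_iff _ (IsFractionRing.injective B F)).mpr hb0
  have hI : spanSingleton B⁰ (algebraMap B F a / algebraMap B F b) ≠ 0 := by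
    rw [Ne, spanSingleton_eq_zero_iff]; exact hf
  have hrep : spanSingleton B⁰ (algebraMap B F a / algebraMap B F b) =
      spanSingleton B⁰ ((algebraMap B F) b)⁻¹ * ↑(Ideal.span {a} : Ideal B) := by
    rw [coeIdeal_span_singleton, spanSingleton_mul_spanSingleton, div_eq_inv_mul]
  rw [count_well_defined F w hI hrep, div_eq_mul_inv,
    (pl (K := K) w).ord_mul haF (inv_ne_zero hbF), Place.ord_inv,
    Fermat.Agent.X0.FFDedekind.ord_ofHeightOneSpectrum_algebraMap w ha0,
    Fermat.Agent.X0.FFDedekind.ord_ofHeightOneSpectrum_algebraMap w hb0]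
  ring

end Fermat.Agent.AV.PicBridge84.Places
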