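/-
Fermat/Agent/AV/PicBridge84/Chart.lean  (helper84)

Programme AV (S26 + S27), brick F2 (`Pic0 K F = J_C(K)`), file 2:
places of `F / K` versus the two Dedekind charts `R0`, `R1 ⊆ F` of a two-chart curve, and the
point pair `X v` of a place.
-/
import Mathlib
import Fermat.Agent.AV.PicBridge84.Places
import Fermat.Agent.Jac.AbelJacobi73.Riemann

set_option autoImplicit false
set_option linter.unusedSectionVars false
set_option linter.style.haveILetI false

universe u

open AlgebraicCurve IsDedekindDomain
open Fermat.Agent.Jac Fermat.Agent.Jac.LineOps39 Fermat.Agent.Jac.AbelJacobi73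
open Fermat.Agent.AV.PicBridge84.Places Fermat.Agent.X0.FF

namespace Fermat.Agent.AV.PicBridge84.Chart

variable {K F : Type u} [Field K] [Field F] [Algebra K F]
variable {R0 R1 R01 : Type u} [CommRing R0] [CommRing R1] [CommRing R01]
  [Algebra K R0] [Algebra K R1] [Algebra K R01] [Algebra R0 R01] [Algebra R1 R01]
  [IsScalarTower K R0 R01] [IsScalarTower K R1 R01]
  [IsDedekindDomain R0] [IsDedekindDomain R1] [IsDomain R01]
  [Algebra R0 F] [Algebra R1 F] [Algebra R01 F]
  [IsScalarTower R0 R01 F] [IsScalarTower R1 R01 F] [IsScalarTower K R0 F] [IsScalarTower K R1 F]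
  [IsFractionRing R0 F] [IsFractionRing R1 F]

variable (c : TwoChart K R0 R1 R01)

/-- `t * s = 1` in the function field. -/
theorem tF_mul_sF : algebraMap R0 F c.t * algebraMap R1 F c.s = 1 := by
  have h := congrArg (algebraMap R01 F) c.ts
  rwa [map_mul, map_one, ← IsScalarTower.algebraMap_apply, ← IsScalarTower.algebraMap_apply] at h

theorem tF_ne_zero : algebraMap R0 F c.t ≠ 0 := left_ne_zero_of_mul_eq_one (tF_mul_sF c)

theorem sF_ne_zero : algebraMap R1 F c.s ≠ 0 := right_ne_zero_of_mul_eq_one (tF_mul_sF c)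

include c in
/-- The overlap ring also has fraction field `F`. -/
theorem isFractionRing01 : IsFractionRing R01 F :=
  have := c.away0
  IsFractionRing.isFractionRing_of_isDomain_of_isLocalization (Submonoid.powers c.t) R01 F

include c in
theorem algebraMap01_injective : Function.Injective (algebraMap R01 F) :=
  have := isFractionRing01 (F := F) c
  IsFractionRing.injective R01 F

/-- Elements of the overlap ring are fractions `a / t ^ k`. -/
theorem exists_mul_pow_t (y : R01) :
    ∃ (k : ℕ) (a : R0), algebraMap R01 F y * algebraMap R0 F c.t ^ k = algebraMap R0 F a := by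
  have := c.away0
  obtain ⟨⟨a, ⟨_, k, rfl⟩⟩, h⟩ := IsLocalization.surj (Submonoid.powers c.t) y
  refine ⟨k, a, ?_⟩
  have h2 := congrArg (algebraMap R01 F) h
  simpa [map_mul, map_pow, ← IsScalarTower.algebraMap_apply] using h2

/-- Elements of the overlap ring are fractions `a / s ^ k`. -/
theorem exists_mul_pow_s (y : R01) :
    ∃ (k : ℕ) (a : R1), algebraMap R01 F y * algebraMap R1 F c.s ^ k = algebraMap R1 F a := by
  have := c.away1
  obtain ⟨⟨a, ⟨_, k, rfl⟩⟩, h⟩ := IsLocalization.surj (Submonoid.powers c.s) y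
  refine ⟨k, a, ?_⟩
  have h2 := congrArg (algebraMap R01 F) h
  simpa [map_mul, map_pow, ← IsScalarTower.algebraMap_apply] using h2

variable {c}

theorem ord_nonneg_of_contains {B : Type*} [CommRing B] [Algebra B F] {v : Place K F}
    (h : Contains v B) (b : B) : 0 ≤ v.ord (algebraMap B F b) :=
  ffp_ord_nonneg_of_mem v (h b)

variable (c)

/-- At a place of the overlap, `t` is a unit. -/
theorem ord_tF_eq_zero {v : Place K F} (h0 : Contains v R0) (h1 : Contains v R1) :
    v.ord (algebraMap R0 F c.t) = 0 := by
  have h := congrArg v.ord (tF_mul_sF (F := F) c)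
  rw [v.ord_mul (tF_ne_zero c) (sF_ne_zero c), Place.ord_one] at h
  have := ord_nonneg_of_contains h0 c.t
  have := ord_nonneg_of_contains h1 c.s
  omega

theorem ord_sF_eq_neg (v : Place K F) :
    v.ord (algebraMap R1 F c.s) = -v.ord (algebraMap R0 F c.t) := by
  have h := congrArg v.ord (tF_mul_sF (F := F) c)
  rw [v.ord_mul (tF_ne_zero c) (sF_ne_zero c), Place.ord_one] at h
  omega

/-- A place of chart 0 at which `t` is a unit lies in chart 1. -/
theorem contains1_of_ord_tF {v : Place K F} (h0 : Contains v R0)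
    (ht : v.ord (algebraMap R0 F c.t) = 0) : Contains v R1 := by
  intro x
  obtain ⟨k, a, hka⟩ := exists_mul_pow_t (F := F) c (algebraMap R1 R01 x)
  rw [← IsScalarTower.algebraMap_apply] at hka
  rw [ffp_mem_iff_ord_nonneg]
  rcases eq_or_ne (algebraMap R1 F x) 0 with hx | hx
  · rw [hx]; simp
  have h := congrArg v.ord hka
  rw [v.ord_mul hx (pow_ne_zero _ (tF_ne_zero c)), ← zpow_natCast, v.ord_zpow, ht, mul_zero,
    add_zero] at h
  rw [h]
  exact ord_nonneg_of_contains h0 a

/-- A place of chart 1 at which `s` is a unit lies in chart 0. -/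
theorem contains0_of_ord_sF {v : Place K F} (h1 : Contains v R1)
    (hs : v.ord (algebraMap R1 F c.s) = 0) : Contains v R0 := by
  intro x
  obtain ⟨k, a, hka⟩ := exists_mul_pow_s (F := F) c (algebraMap R0 R01 x)
  rw [← IsScalarTower.algebraMap_apply] at hka
  rw [ffp_mem_iff_ord_nonneg]
  rcases eq_or_ne (algebraMap R0 F x) 0 with hx | hx
  · rw [hx]; simp
  have h := congrArg v.ord hka
  rw [v.ord_mul hx (pow_ne_zero _ (sF_ne_zero c)), ← zpow_natCast, v.ord_zpow, hs, mul_zero,
    add_zero] at h
  rw [h]
  exact ord_nonneg_of_contains h1 a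

/-- At a place of chart 0 outside chart 1, `t` vanishes. -/
theorem t_mem_ctr {v : Place K F} (h0 : Contains v R0) (h1 : ¬ Contains v R1) :
    c.t ∈ (ctr v h0).asIdeal := by
  rw [mem_ctr_iff]
  right
  have := ord_nonneg_of_contains h0 c.t
  rcases this.lt_or_eq with h | h
  · exact h
  · exact absurd (contains1_of_ord_tF c h0 h.symm) h1

/-- At a place of chart 1 outside chart 0, `s` vanishes. -/
theorem s_mem_ctr {v : Place K F} (h1 : Contains v R1) (h0 : ¬ Contains v R0) :
    c.s ∈ (ctr v h1).asIdeal := by
  rw [mem_ctr_iff]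
  right
  have := ord_nonneg_of_contains h1 c.s
  rcases this.lt_or_eq with h | h
  · exact h
  · exact absurd (contains0_of_ord_sF c h1 h.symm) h0

open Classical in
/-- The second ideal of the point pair of a place of chart 0. -/
theorem ofChart0_I1 {v : Place K F} (h0 : Contains v R0) :
    (IdealPair.ofChart0 c (ctr v h0).asIdeal).I1 =
      if h1 : Contains v R1 then (ctr v h1).asIdeal else ⊤ := by
  have := c.away0
  change ((ctr v h0).asIdeal.map (algebraMap R0 R01)).comap (algebraMap R1 R01) = _
  split_ifs with h1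
  · ext x
    rw [Ideal.mem_comap, IsLocalization.mem_map_algebraMap_iff (Submonoid.powers c.t) R01,
      mem_ctr_iff]
    have ht := ord_tF_eq_zero c h0 h1
    constructor
    · rintro ⟨⟨⟨a, ha⟩, ⟨_, k, rfl⟩⟩, h⟩
      have h2 := congrArg (algebraMap R01 F) h
      simp only [map_mul, map_pow, ← IsScalarTower.algebraMap_apply] at h2
      rcases eq_or_ne (algebraMap R1 F x) 0 with hx | hx
      · exact Or.inl hx
      right
      have h3 := congrArg v.ord h2
      rw [v.ord_mul hx (pow_ne_zero _ (tF_ne_zero c)), ← zpow_natCast, v.ord_zpow, ht, mul_zero,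
        add_zero] at h3
      rw [h3]
      rcases (mem_ctr_iff v h0 a).1 ha with ha0 | hapos
      · exfalso
        rw [ha0] at h2
        exact (mul_ne_zero hx (pow_ne_zero _ (tF_ne_zero c))) h2
      · exact hapos
    · intro hx
      obtain ⟨k, a, hka⟩ := exists_mul_pow_t (F := F) c (algebraMap R1 R01 x)
      rw [← IsScalarTower.algebraMap_apply] at hka
      have ha : a ∈ (ctr v h0).asIdeal := by
        rw [mem_ctr_iff]
        rcases hx with hx | hx
        · left; rw [← hka, hx, zero_mul]
        · rcases eq_or_ne (algebraMap R1 F x) 0 with hx0 | hx0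
          · left; rw [← hka, hx0, zero_mul]
          right
          rw [← hka, v.ord_mul hx0 (pow_ne_zero _ (tF_ne_zero c)), ← zpow_natCast, v.ord_zpow, ht,
            mul_zero, add_zero]
          exact hx
      refine ⟨⟨⟨a, ha⟩, ⟨c.t ^ k, k, rfl⟩⟩, ?_⟩
      have hinj : Function.Injective (algebraMap R01 F) := algebraMap01_injective c
      apply hinj
      simp only [map_mul, map_pow, ← IsScalarTower.algebraMap_apply]
      exact hka
  · rw [Ideal.comap_eq_top_iff, Ideal.eq_top_iff_one]
    have hu : IsUnit (algebraMap R0 R01 c.t) :=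
      IsLocalization.map_units (M := Submonoid.powers c.t) R01 ⟨c.t, Submonoid.mem_powers _⟩
    have hmem : algebraMap R0 R01 c.t ∈ (ctr v h0).asIdeal.map (algebraMap R0 R01) :=
      Ideal.mem_map_of_mem _ (t_mem_ctr c h0 h1)
    exact (Ideal.eq_top_of_isUnit_mem _ hmem hu) ▸ Submodule.mem_top


open Classical in
/-- The first ideal of the point pair of a place of chart 1. -/
theorem ofChart1_I0 {v : Place K F} (h1 : Contains v R1) :
    (IdealPair.ofChart1 c (ctr v h1).asIdeal).I0 =
      if h0 : Contains v R0 then (ctr v h0).asIdeal else ⊤ := by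
  have := c.away1
  change ((ctr v h1).asIdeal.map (algebraMap R1 R01)).comap (algebraMap R0 R01) = _
  split_ifs with h0
  · ext x
    rw [Ideal.mem_comap, IsLocalization.mem_map_algebraMap_iff (Submonoid.powers c.s) R01,
      mem_ctr_iff]
    have hs : v.ord (algebraMap R1 F c.s) = 0 := by
      rw [ord_sF_eq_neg, ord_tF_eq_zero c h0 h1, neg_zero]
    constructor
    · rintro ⟨⟨⟨a, ha⟩, ⟨_, k, rfl⟩⟩, h⟩
      have h2 := congrArg (algebraMap R01 F) h
      simp only [map_mul, map_pow, ← IsScalarTower.algebraMap_apply] at h2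
      rcases eq_or_ne (algebraMap R0 F x) 0 with hx | hx
      · exact Or.inl hx
      right
      have h3 := congrArg v.ord h2
      rw [v.ord_mul hx (pow_ne_zero _ (sF_ne_zero c)), ← zpow_natCast, v.ord_zpow, hs, mul_zero,
        add_zero] at h3
      rw [h3]
      rcases (mem_ctr_iff v h1 a).1 ha with ha0 | hapos
      · exfalso
        rw [ha0] at h2
        exact (mul_ne_zero hx (pow_ne_zero _ (sF_ne_zero c))) h2
      · exact hapos
    · intro hx
      obtain ⟨k, a, hka⟩ := exists_mul_pow_s (F := F) c (algebraMap R0 R01 x)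
      rw [← IsScalarTower.algebraMap_apply] at hka
      have ha : a ∈ (ctr v h1).asIdeal := by
        rw [mem_ctr_iff]
        rcases hx with hx | hx
        · left; rw [← hka, hx, zero_mul]
        · rcases eq_or_ne (algebraMap R0 F x) 0 with hx0 | hx0
          · left; rw [← hka, hx0, zero_mul]
          right
          rw [← hka, v.ord_mul hx0 (pow_ne_zero _ (sF_ne_zero c)), ← zpow_natCast, v.ord_zpow, hs,
            mul_zero, add_zero]
          exact hx
      refine ⟨⟨⟨a, ha⟩, ⟨c.s ^ k, k, rfl⟩⟩, ?_⟩
      apply algebraMap01_injective (F := F) c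
      simp only [map_mul, map_pow, ← IsScalarTower.algebraMap_apply]
      exact hka
  · rw [Ideal.comap_eq_top_iff, Ideal.eq_top_iff_one]
    have hu : IsUnit (algebraMap R1 R01 c.s) :=
      IsLocalization.map_units (M := Submonoid.powers c.s) R01 ⟨c.s, Submonoid.mem_powers _⟩
    have hmem : algebraMap R1 R01 c.s ∈ (ctr v h1).asIdeal.map (algebraMap R1 R01) :=
      Ideal.mem_map_of_mem _ (s_mem_ctr c h1 h0)
    exact (Ideal.eq_top_of_isUnit_mem _ hmem hu) ▸ Submodule.mem_top

/-! ### The point pair of a place -/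

open Classical in
/-- The point pair (ideal sheaf of the closed point) of a place of `F / K`. -/
noncomputable def X (v : Place K F) : IdealPair R0 R1 R01 :=
  if h0 : Contains v R0 then IdealPair.ofChart0 c (ctr v h0).asIdeal
  else if h1 : Contains v R1 then IdealPair.ofChart1 c (ctr v h1).asIdeal
  else IdealPair.top

theorem X_of_contains0 {v : Place K F} (h0 : Contains v R0) :
    X c v = IdealPair.ofChart0 c (ctr v h0).asIdeal := by
  unfold X; rw [dif_pos h0]

theorem X_of_contains1 {v : Place K F} (h1 : Contains v R1) :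
    X c v = IdealPair.ofChart1 c (ctr v h1).asIdeal := by
  by_cases h0 : Contains v R0
  · rw [X_of_contains0 c h0]
    apply idealPair_ext
    · rw [ofChart1_I0 c h1, dif_pos h0]; rfl
    · rw [ofChart0_I1 c h0, dif_pos h1]; rfl
  · unfold X; rw [dif_neg h0, dif_pos h1]

open Classical in
theorem X_I0 (v : Place K F) :
    (X c v).I0 = if h0 : Contains v R0 then (ctr v h0).asIdeal else ⊤ := by
  split_ifs with h0
  · rw [X_of_contains0 c h0]; rfl
  · by_cases h1 : Contains v R1
    · rw [X_of_contains1 c h1, ofChart1_I0 c h1, dif_neg h0]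
    · unfold X; rw [dif_neg h0, dif_neg h1]; rfl

open Classical in
theorem X_I1 (v : Place K F) :
    (X c v).I1 = if h1 : Contains v R1 then (ctr v h1).asIdeal else ⊤ := by
  split_ifs with h1
  · rw [X_of_contains1 c h1]; rfl
  · by_cases h0 : Contains v R0
    · rw [X_of_contains0 c h0, ofChart0_I1 c h0, dif_neg h1]
    · unfold X; rw [dif_neg h0, dif_neg h1]; rfl

open Classical FractionalIdeal in
/-- Multiplicity of the point pair of `v` at a prime of chart 0. -/
theorem count_X_I0 (w : HeightOneSpectrum R0) (v : Place K F) :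
    count F w ((X c v).I0 : FractionalIdeal (nonZeroDivisors R0) F) =
      if pl w = v then 1 else 0 := by
  rw [X_I0]
  by_cases h0 : Contains v R0
  · rw [dif_pos h0, count_maximal]
    have := eq_ctr_iff v h0 w
    by_cases hw : pl w = v
    · rw [if_pos hw, if_pos (this.2 hw).symm]
    · rw [if_neg hw, if_neg (fun h => hw (this.1 h.symm))]
  · rw [dif_neg h0, if_neg (fun h : pl w = v => h0 (h ▸ contains_pl w))]
    rw [show ((⊤ : Ideal R0) : FractionalIdeal (nonZeroDivisors R0) F) = 1 from
      FractionalIdeal.coeIdeal_top _]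
    exact count_one F w

open Classical FractionalIdeal in
/-- Multiplicity of the point pair of `v` at a prime of chart 1. -/
theorem count_X_I1 (w : HeightOneSpectrum R1) (v : Place K F) :
    count F w ((X c v).I1 : FractionalIdeal (nonZeroDivisors R1) F) =
      if pl w = v then 1 else 0 := by
  rw [X_I1]
  by_cases h1 : Contains v R1
  · rw [dif_pos h1, count_maximal]
    have := eq_ctr_iff v h1 w
    by_cases hw : pl w = v
    · rw [if_pos hw, if_pos (this.2 hw).symm]
    · rw [if_neg hw, if_neg (fun h => hw (this.1 h.symm))]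
  · rw [dif_neg h1, if_neg (fun h : pl w = v => h1 (h ▸ contains_pl w))]
    rw [show ((⊤ : Ideal R1) : FractionalIdeal (nonZeroDivisors R1) F) = 1 from
      FractionalIdeal.coeIdeal_top _]
    exact count_one F w

variable {c}

/-- The point pair of a place is a rational point pair. -/
theorem isRatPointPair_X (H : CurveHyp c)
    (hcov : ∀ v : Place K F, Contains v R0 ∨ Contains v R1) (v : Place K F) :
    IsRatPointPair c (X c v) := by
  rcases hcov v with h0 | h1
  · exact Or.inl ⟨_, (ctr v h0).isMaximal, H.rat0 _ (ctr v h0).isMaximal, X_of_contains0 c h0⟩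
  · exact Or.inr ⟨_, (ctr v h1).isMaximal, H.rat1 _ (ctr v h1).isMaximal, X_of_contains1 c h1⟩

/-- Every point pair is the point pair of a place. -/
theorem exists_X_eq (H : CurveHyp c) {P : IdealPair R0 R1 R01} (hP : IsPointPair c P) :
    ∃ v : Place K F, X c v = P := by
  rcases hP with ⟨m, hm, rfl⟩ | ⟨m, hm, rfl⟩
  · have hm0 : m ≠ ⊥ := Ring.ne_bot_of_isMaximal_of_not_isField hm H.notField0
    let w : HeightOneSpectrum R0 := ⟨m, hm.isPrime, hm0⟩
    refine ⟨pl w, ?_⟩
    rw [X_of_contains0 c (contains_pl w), ctr_pl]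
  · have hm0 : m ≠ ⊥ := Ring.ne_bot_of_isMaximal_of_not_isField hm H.notField1
    let w : HeightOneSpectrum R1 := ⟨m, hm.isPrime, hm0⟩
    refine ⟨pl w, ?_⟩
    rw [X_of_contains1 c (contains_pl w), ctr_pl]

end Fermat.Agent.AV.PicBridge84.Chart
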