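/-
Fermat/Agent/AV/PicBridge84/IsoCrit.lean  (helper84)

Programme AV (S26 + S27), brick F2 (`Pic0 K F = J_C(K)`), file 3:
two ideal sheaves `O(-D)`, `O(-E)` of a two-chart curve with Dedekind charts inside a field `F`
are isomorphic iff some `f ∈ Fˣ` scales the ideals of `D` onto those of `E` on both charts.
-/
import Mathlib
import Fermat.Agent.AV.PicBridge84.Chart

set_option autoImplicit false
set_option linter.unusedSectionVars false
set_option linter.style.haveILetI false

universe u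

open AlgebraicCurve IsDedekindDomain
open Fermat.Agent.Jac Fermat.Agent.Jac.LineOps39 Fermat.Agent.Jac.AbelJacobi73
open scoped nonZeroDivisors

namespace Fermat.Agent.AV.PicBridge84.IsoCrit

/-! ### One chart -/

section OneChart

variable {F : Type*} [Field F] {B : Type*} [CommRing B] [IsDomain B] [Algebra B F]
  [IsFractionRing B F]

/-- `f` scales the ideal `I` onto the ideal `J` (inside the fraction field). -/
def Scales (f : F) (I J : Ideal B) : Prop :=
  (∀ x ∈ I, ∃ y ∈ J, algebraMap B F y = f * algebraMap B F x) ∧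
    (∀ y ∈ J, ∃ x ∈ I, algebraMap B F y = f * algebraMap B F x)

theorem scales_iff_fractionalIdeal (f : F) (I J : Ideal B) :
    Scales f I J ↔
      FractionalIdeal.spanSingleton B⁰ f * (I : FractionalIdeal B⁰ F) =
        (J : FractionalIdeal B⁰ F) := by
  constructor
  · rintro ⟨h1, h2⟩
    ext z
    rw [FractionalIdeal.mem_singleton_mul, FractionalIdeal.mem_coeIdeal]
    constructor
    · rintro ⟨y, hy, rfl⟩
      obtain ⟨x, hx, rfl⟩ := (FractionalIdeal.mem_coeIdeal _).1 hy
      obtain ⟨y', hy', e⟩ := h1 x hx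
      exact ⟨y', hy', e⟩
    · rintro ⟨y, hy, rfl⟩
      obtain ⟨x, hx, e⟩ := h2 y hy
      exact ⟨algebraMap B F x, (FractionalIdeal.mem_coeIdeal _).2 ⟨x, hx, rfl⟩, e⟩
  · intro h
    constructor
    · intro x hx
      have : f * algebraMap B F x ∈ (J : FractionalIdeal B⁰ F) := by
        rw [← h, FractionalIdeal.mem_singleton_mul]
        exact ⟨_, (FractionalIdeal.mem_coeIdeal _).2 ⟨x, hx, rfl⟩, rfl⟩
      obtain ⟨y, hy, e⟩ := (FractionalIdeal.mem_coeIdeal _).1 this
      exact ⟨y, hy, e⟩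
    · intro y hy
      have : algebraMap B F y ∈ FractionalIdeal.spanSingleton B⁰ f * (I : FractionalIdeal B⁰ F) := by
        rw [h]; exact (FractionalIdeal.mem_coeIdeal _).2 ⟨y, hy, rfl⟩
      rw [FractionalIdeal.mem_singleton_mul] at this
      obtain ⟨z, hz, e⟩ := this
      obtain ⟨x, hx, rfl⟩ := (FractionalIdeal.mem_coeIdeal _).1 hz
      exact ⟨x, hx, e⟩

/-- The map `x ↦ f * x` on an ideal, with values in `F`. -/
noncomputable def scaleMap (f : F) (I : Ideal B) : I →ₗ[B] F :=
  (LinearMap.lsmul F F f).restrictScalars B ∘ₗ (Algebra.linearMap B F) ∘ₗ I.subtype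

@[simp] theorem scaleMap_apply (f : F) (I : Ideal B) (x : I) :
    scaleMap f I x = f * algebraMap B F x := rfl

theorem scaleMap_injective {f : F} (hf : f ≠ 0) (I : Ideal B) :
    Function.Injective (scaleMap f I) := by
  intro x y h
  simp only [scaleMap_apply] at h
  exact Subtype.ext (IsFractionRing.injective B F (mul_left_cancel₀ hf h))

theorem range_scaleMap {f : F} {I J : Ideal B} (h : Scales f I J) :
    LinearMap.range (scaleMap f I) = Submodule.map (Algebra.linearMap B F) J := by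
  ext z
  simp only [LinearMap.mem_range, Submodule.mem_map, scaleMap_apply, Algebra.linearMap_apply,
    Subtype.exists]
  constructor
  · rintro ⟨x, hx, rfl⟩
    obtain ⟨y, hy, e⟩ := h.1 x hx
    exact ⟨y, hy, e⟩
  · rintro ⟨y, hy, rfl⟩
    obtain ⟨x, hx, e⟩ := h.2 y hy
    exact ⟨x, hx, e.symm⟩

/-- The linear equivalence `I ≃ J`, `x ↦ f * x`. -/
noncomputable def scaleEquiv {f : F} (hf : f ≠ 0) {I J : Ideal B} (h : Scales f I J) :
    I ≃ₗ[B] J :=
  (LinearEquiv.ofInjective (scaleMap f I) (scaleMap_injective hf I)).trans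
    ((LinearEquiv.ofEq _ _ (range_scaleMap h)).trans
      (Submodule.equivMapOfInjective (Algebra.linearMap B F) (IsFractionRing.injective B F) J).symm)

theorem scaleEquiv_apply {f : F} (hf : f ≠ 0) {I J : Ideal B} (h : Scales f I J) (x : I) :
    algebraMap B F (scaleEquiv hf h x : B) = f * algebraMap B F x := by
  set y := scaleEquiv hf h x with hy
  have h1 : (Submodule.equivMapOfInjective (Algebra.linearMap B F)
      (IsFractionRing.injective B F) J) y =
      (LinearEquiv.ofEq _ _ (range_scaleMap h))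
        (LinearEquiv.ofInjective (scaleMap f I) (scaleMap_injective hf I) x) := by
    rw [hy, scaleEquiv]
    simp
  have h2 := congrArg Subtype.val h1
  simpa using h2

/-- Every linear equivalence between nonzero ideals of a domain is a scaling. -/
theorem exists_scales_of_equiv {I J : Ideal B} (hI : I ≠ ⊥) (e : I ≃ₗ[B] J) :
    ∃ f : F, f ≠ 0 ∧ (∀ x : I, algebraMap B F (e x : B) = f * algebraMap B F x) ∧
      Scales f I J := by
  obtain ⟨a, haI, ha0⟩ := Submodule.exists_mem_ne_zero_of_ne_bot hI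
  have haF : algebraMap B F a ≠ 0 := (map_ne_zero_iff _ (IsFractionRing.injective B F)).mpr ha0
  have hea : (e ⟨a, haI⟩ : B) ≠ 0 := by
    intro h
    have : e ⟨a, haI⟩ = 0 := Subtype.ext h
    rw [LinearEquiv.map_eq_zero_iff] at this
    exact ha0 (congrArg Subtype.val this)
  have heaF : algebraMap B F (e ⟨a, haI⟩ : B) ≠ 0 :=
    (map_ne_zero_iff _ (IsFractionRing.injective B F)).mpr hea
  have key : ∀ x : I, algebraMap B F (e x : B) =
      (algebraMap B F (e ⟨a, haI⟩ : B) / algebraMap B F a) * algebraMap B F x := by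
    intro x
    have h1 : a • x = (x : B) • (⟨a, haI⟩ : I) := Subtype.ext (by simp [mul_comm])
    have h2 := congrArg (fun z : J => algebraMap B F (z : B)) (congrArg e h1)
    simp only [map_smul, Submodule.coe_smul, smul_eq_mul, map_mul] at h2
    field_simp
    rw [mul_comm, h2]; ring
  refine ⟨_, div_ne_zero heaF haF, key, fun x hx => ⟨e ⟨x, hx⟩, (e ⟨x, hx⟩).2, key ⟨x, hx⟩⟩,
    fun y hy => ⟨e.symm ⟨y, hy⟩, (e.symm ⟨y, hy⟩).2, ?_⟩⟩
  have := key (e.symm ⟨y, hy⟩)
  rwa [LinearEquiv.apply_symm_apply] at this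

end OneChart


/-! ### Two charts -/

section TwoChart

open Fermat.Agent.AV.PicBridge84.Chart

variable {K F : Type u} [Field K] [Field F] [Algebra K F]
variable {R0 R1 R01 : Type u} [CommRing R0] [CommRing R1] [CommRing R01]
  [Algebra K R0] [Algebra K R1] [Algebra K R01] [Algebra R0 R01] [Algebra R1 R01]
  [IsScalarTower K R0 R01] [IsScalarTower K R1 R01]
  [IsDedekindDomain R0] [IsDedekindDomain R1] [IsDomain R01]
  [Algebra R0 F] [Algebra R1 F] [Algebra R01 F]
  [IsScalarTower R0 R01 F] [IsScalarTower R1 R01 F] [IsScalarTower K R0 F] [IsScalarTower K R1 F]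
  [IsFractionRing R0 F] [IsFractionRing R1 F]

variable (c : TwoChart K R0 R1 R01)

theorem Scales.symm {B : Type*} [CommRing B] [IsDomain B] [Algebra B F] [IsFractionRing B F]
    {f : F} (hf : f ≠ 0) {I J : Ideal B} (h : Scales f I J) : Scales f⁻¹ J I := by
  constructor
  · intro y hy
    obtain ⟨x, hx, e⟩ := h.2 y hy
    exact ⟨x, hx, by rw [e, inv_mul_cancel_left₀ hf]⟩
  · intro x hx
    obtain ⟨y, hy, e⟩ := h.1 x hx
    exact ⟨y, hy, by rw [e, inv_mul_cancel_left₀ hf]⟩

include c in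
/-- One half of: scaling on chart 0 extends to the overlap. -/
theorem scales01_half {f : F} {I J : Ideal R0}
    (h : ∀ x ∈ I, ∃ y ∈ J, algebraMap R0 F y = f * algebraMap R0 F x) :
    ∀ x ∈ I.map (algebraMap R0 R01), ∃ y ∈ J.map (algebraMap R0 R01),
      algebraMap R01 F y = f * algebraMap R01 F x := by
  have := c.away0
  intro x hx
  rw [IsLocalization.mem_map_algebraMap_iff (Submonoid.powers c.t) R01] at hx
  obtain ⟨⟨⟨a, ha⟩, ⟨_, k, rfl⟩⟩, hxa⟩ := hx
  obtain ⟨b, hb, hba⟩ := h a ha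
  have hu : IsUnit (algebraMap R0 R01 (c.t ^ k)) :=
    IsLocalization.map_units (M := Submonoid.powers c.t) R01 ⟨c.t ^ k, k, rfl⟩
  obtain ⟨u, hu'⟩ := hu
  refine ⟨algebraMap R0 R01 b * ↑u⁻¹, Ideal.mul_mem_right _ _ (Ideal.mem_map_of_mem _ hb), ?_⟩
  have h1 : x = algebraMap R0 R01 a * ↑u⁻¹ := by
    rw [Units.eq_mul_inv_iff_mul_eq, hu']; exact hxa
  rw [h1, map_mul, map_mul, ← IsScalarTower.algebraMap_apply, ← IsScalarTower.algebraMap_apply, hba]
  ring

include c in
/-- One half of: scaling on chart 1 extends to the overlap. -/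
theorem scales01_half' {f : F} {I J : Ideal R1}
    (h : ∀ x ∈ I, ∃ y ∈ J, algebraMap R1 F y = f * algebraMap R1 F x) :
    ∀ x ∈ I.map (algebraMap R1 R01), ∃ y ∈ J.map (algebraMap R1 R01),
      algebraMap R01 F y = f * algebraMap R01 F x := by
  have := c.away1
  intro x hx
  rw [IsLocalization.mem_map_algebraMap_iff (Submonoid.powers c.s) R01] at hx
  obtain ⟨⟨⟨a, ha⟩, ⟨_, k, rfl⟩⟩, hxa⟩ := hx
  obtain ⟨b, hb, hba⟩ := h a ha
  have hu : IsUnit (algebraMap R1 R01 (c.s ^ k)) :=
    IsLocalization.map_units (M := Submonoid.powers c.s) R01 ⟨c.s ^ k, k, rfl⟩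
  obtain ⟨u, hu'⟩ := hu
  refine ⟨algebraMap R1 R01 b * ↑u⁻¹, Ideal.mul_mem_right _ _ (Ideal.mem_map_of_mem _ hb), ?_⟩
  have h1 : x = algebraMap R1 R01 a * ↑u⁻¹ := by
    rw [Units.eq_mul_inv_iff_mul_eq, hu']; exact hxa
  rw [h1, map_mul, map_mul, ← IsScalarTower.algebraMap_apply, ← IsScalarTower.algebraMap_apply, hba]
  ring

include c in
/-- Scaling on chart 0 extends to the overlap. -/
theorem scales01_of_scales0 [IsFractionRing R01 F] {f : F} (hf : f ≠ 0) {I J : Ideal R0}
    (h : Scales f I J) :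
    Scales f (I.map (algebraMap R0 R01)) (J.map (algebraMap R0 R01)) := by
  refine ⟨scales01_half c h.1, fun y hy => ?_⟩
  obtain ⟨x, hx, e⟩ := scales01_half c (Scales.symm hf h).1 y hy
  exact ⟨x, hx, by rw [e, mul_inv_cancel_left₀ hf]⟩

/-- **Iso criterion, easy direction**: a common scaling function gives an isomorphism
`O(-D) ≅ O(-E)`. -/
noncomputable def isoOfScales {D E : IdealPair R0 R1 R01} {f : F} (hf : f ≠ 0)
    (h0 : Scales f D.I0 E.I0) (h1 : Scales f D.I1 E.I1) :
    QC2.Iso (ofIdeals c D) (ofIdeals c E) :=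
  haveI := isFractionRing01 (F := F) c
  have h01 : Scales f D.I01 E.I01 := scales01_of_scales0 c hf h0
  { e0 := scaleEquiv hf h0
    e1 := scaleEquiv hf h1
    e01 := scaleEquiv hf h01
    comm0 := by
      rintro ⟨x, hx⟩
      apply Subtype.ext
      apply algebraMap01_injective (F := F) c
      have e1 := scaleEquiv_apply hf h01 ((ofIdeals c D).r0 ⟨x, hx⟩)
      have e2 := scaleEquiv_apply hf h0 ⟨x, hx⟩
      refine e1.trans ?_
      change f * algebraMap R01 F (algebraMap R0 R01 x) =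
        algebraMap R01 F (algebraMap R0 R01 (scaleEquiv hf h0 ⟨x, hx⟩ : R0))
      rw [← IsScalarTower.algebraMap_apply, ← IsScalarTower.algebraMap_apply, e2]
    comm1 := by
      rintro ⟨x, hx⟩
      apply Subtype.ext
      apply algebraMap01_injective (F := F) c
      have e1 := scaleEquiv_apply hf h01 ((ofIdeals c D).r1 ⟨x, hx⟩)
      have e2 := scaleEquiv_apply hf h1 ⟨x, hx⟩
      refine e1.trans ?_
      change f * algebraMap R01 F (algebraMap R1 R01 x) =
        algebraMap R01 F (algebraMap R1 R01 (scaleEquiv hf h1 ⟨x, hx⟩ : R1))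
      rw [← IsScalarTower.algebraMap_apply, ← IsScalarTower.algebraMap_apply, e2] }

/-- **Iso criterion, converse**: every isomorphism `O(-D) ≅ O(-E)` is multiplication by a
function. -/
theorem exists_scales_of_iso {D E : IdealPair R0 R1 R01} (hD : PairNeBot D)
    (e : QC2.Iso (ofIdeals c D) (ofIdeals c E)) :
    ∃ f : F, f ≠ 0 ∧ Scales f D.I0 E.I0 ∧ Scales f D.I1 E.I1 := by
  haveI := isFractionRing01 (F := F) c
  have hD01 : D.I01 ≠ ⊥ := by
    change D.I0.map (algebraMap R0 R01) ≠ ⊥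
    rw [Ne, Ideal.map_eq_bot_iff_of_injective (algebraMap_R0_injective c)]
    exact hD.ne0
  let E0 : (D.I0 : Ideal R0) ≃ₗ[R0] (E.I0 : Ideal R0) := e.e0
  let E1 : (D.I1 : Ideal R1) ≃ₗ[R1] (E.I1 : Ideal R1) := e.e1
  let E01 : (D.I01 : Ideal R01) ≃ₗ[R01] (E.I01 : Ideal R01) := e.e01
  obtain ⟨f0, hf0, k0, s0⟩ := exists_scales_of_equiv (F := F) hD.ne0 E0
  obtain ⟨f1, hf1, k1, s1⟩ := exists_scales_of_equiv (F := F) hD.ne1 E1
  obtain ⟨f01, hf01, k01, -⟩ := exists_scales_of_equiv (F := F) hD01 E01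
  -- compare on chart 0
  obtain ⟨a, haI, ha0⟩ := Submodule.exists_mem_ne_zero_of_ne_bot hD.ne0
  have haF : algebraMap R0 F a ≠ 0 :=
    (map_ne_zero_iff _ (IsFractionRing.injective R0 F)).mpr ha0
  have e0 : f01 = f0 := by
    let y : (D.I01 : Ideal R01) := (ofIdeals c D).r0 ⟨a, haI⟩
    have hy : (y : R01) = algebraMap R0 R01 a := rfl
    have h1 := k01 y
    have h2 := k0 ⟨a, haI⟩
    have h3 : ((E01 y : (E.I01 : Ideal R01)) : R01) =
        algebraMap R0 R01 ((E0 ⟨a, haI⟩ : (E.I0 : Ideal R0)) : R0) :=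
      congrArg Subtype.val (e.comm0 ⟨a, haI⟩)
    have h5 : f01 * algebraMap R0 F a = f0 * algebraMap R0 F a := by
      calc f01 * algebraMap R0 F a = f01 * algebraMap R01 F (y : R01) := by
            rw [hy, ← IsScalarTower.algebraMap_apply]
        _ = algebraMap R01 F ((E01 y : (E.I01 : Ideal R01)) : R01) := h1.symm
        _ = algebraMap R0 F ((E0 ⟨a, haI⟩ : (E.I0 : Ideal R0)) : R0) := by
            rw [h3, ← IsScalarTower.algebraMap_apply]
        _ = f0 * algebraMap R0 F a := h2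
    exact mul_right_cancel₀ haF h5
  obtain ⟨b, hbI, hb0⟩ := Submodule.exists_mem_ne_zero_of_ne_bot hD.ne1
  have hbF : algebraMap R1 F b ≠ 0 :=
    (map_ne_zero_iff _ (IsFractionRing.injective R1 F)).mpr hb0
  have e1 : f01 = f1 := by
    let y : (D.I01 : Ideal R01) := (ofIdeals c D).r1 ⟨b, hbI⟩
    have hy : (y : R01) = algebraMap R1 R01 b := rfl
    have h1 := k01 y
    have h2 := k1 ⟨b, hbI⟩
    have h3 : ((E01 y : (E.I01 : Ideal R01)) : R01) =
        algebraMap R1 R01 ((E1 ⟨b, hbI⟩ : (E.I1 : Ideal R1)) : R1) :=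
      congrArg Subtype.val (e.comm1 ⟨b, hbI⟩)
    have h5 : f01 * algebraMap R1 F b = f1 * algebraMap R1 F b := by
      calc f01 * algebraMap R1 F b = f01 * algebraMap R01 F (y : R01) := by
            rw [hy, ← IsScalarTower.algebraMap_apply]
        _ = algebraMap R01 F ((E01 y : (E.I01 : Ideal R01)) : R01) := h1.symm
        _ = algebraMap R1 F ((E1 ⟨b, hbI⟩ : (E.I1 : Ideal R1)) : R1) := by
            rw [h3, ← IsScalarTower.algebraMap_apply]
        _ = f1 * algebraMap R1 F b := h2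
    exact mul_right_cancel₀ hbF h5
  refine ⟨f0, hf0, s0, ?_⟩
  rw [← e0, e1]
  exact s1

end TwoChart

end Fermat.Agent.AV.PicBridge84.IsoCrit
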