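/-
Fermat/Agent/AV/PicBridge84/DivMap.lean  (helper84)

Programme AV (S26 + S27), brick F2 (`Pic0 K F = J_C(K)`), file 4:
the homomorphism `Ψ : Divisor K F →+ Additive (PicQ c)`, `v ↦ [O(v)]`, its compatibility with
degrees, its surjectivity, and the computation of ideal-sheaf classes of effective divisors.
-/
import Mathlib
import Fermat.Agent.AV.PicBridge84.IsoCrit

set_option autoImplicit false
set_option linter.unusedSectionVars false
set_option linter.style.haveILetI false

universe u

open AlgebraicCurve IsDedekindDomain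
open Fermat.Agent.Jac Fermat.Agent.Jac.LineOps39 Fermat.Agent.Jac.AbelJacobi73
open Fermat.Agent.AV.PicBridge84.Places Fermat.Agent.AV.PicBridge84.Chart
open Fermat.Agent.AV.PicBridge84.IsoCrit
open scoped nonZeroDivisors

namespace Fermat.Agent.AV.PicBridge84.DivMap

variable {K F : Type u} [Field K] [Field F] [Algebra K F]
variable {R0 R1 R01 : Type u} [CommRing R0] [CommRing R1] [CommRing R01]
  [Algebra K R0] [Algebra K R1] [Algebra K R01] [Algebra R0 R01] [Algebra R1 R01]
  [IsScalarTower K R0 R01] [IsScalarTower K R1 R01]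
  [IsDedekindDomain R0] [IsDedekindDomain R1] [IsDomain R01]
  [Algebra R0 F] [Algebra R1 F] [Algebra R01 F]
  [IsScalarTower R0 R01 F] [IsScalarTower R1 R01 F] [IsScalarTower K R0 F] [IsScalarTower K R1 F]
  [IsFractionRing R0 F] [IsFractionRing R1 F]

variable (c : TwoChart K R0 R1 R01)

/-- The class of `O(v)`: the inverse of the ideal class of the point pair of `v`. -/
noncomputable def ptCls (v : Place K F) : PicQ c := (idealCls c (X c v))⁻¹

/-- **The divisor-to-Picard map** `Ψ : D ↦ [O(D)]`. -/
noncomputable def divMap : Divisor K F →+ Additive (PicQ c) :=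
  Finsupp.liftAddHom fun v => zmultiplesAddHom (Additive (PicQ c)) (Additive.ofMul (ptCls c v))

@[simp] theorem divMap_single (v : Place K F) (n : ℤ) :
    divMap c (Finsupp.single v n) = Additive.ofMul (ptCls c v ^ n) := by
  simp [divMap]

/-! ### Degrees -/

theorem hasDeg_zpow {ξ : PicQ c} {d : ℤ} (hξ : HasDeg c ξ d) (n : ℤ) :
    HasDeg c (ξ ^ n) (n * d) := by
  cases n with
  | ofNat n => simpa using hξ.pow c n
  | negSucc n =>
    rw [zpow_negSucc]
    have := (hξ.pow c (n + 1)).inv c
    convert this using 1
    push_cast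
    rw [Int.negSucc_eq]; ring

variable {c}

theorem hasDeg_ptCls (H : CurveHyp c) (hcov : ∀ v : Place K F, Contains v R0 ∨ Contains v R1)
    (v : Place K F) : HasDeg c (ptCls c v) 1 := by
  simpa [ptCls] using (H.hasDeg_idealCls (isRatPointPair_X H hcov v)).inv c

/-- `χ([O(D)] ⊗ ζ) = χ(ζ) + deg D`. -/
theorem hasDeg_divMap (H : CurveHyp c) (hcov : ∀ v : Place K F, Contains v R0 ∨ Contains v R1)
    (hdeg : ∀ v : Place K F, v.deg = 1) (D : Divisor K F) :
    HasDeg c (Additive.toMul (divMap c D)) (Divisor.degree D) := by
  induction D using Finsupp.induction with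
  | zero => simpa using hasDeg_one c
  | single_add v n D _ _ ih =>
    rw [map_add (divMap c), map_add Divisor.degree, toMul_add, divMap_single, toMul_ofMul,
      Divisor.degree_single, hdeg v]
    have := (hasDeg_zpow c (hasDeg_ptCls H hcov v) n).mul c ih
    simpa using this

/-! ### Effective divisors as lists of places -/

/-- The effective divisor of a list of places. -/
noncomputable def listDiv (l : List (Place K F)) : Divisor K F :=
  (l.map fun v => Finsupp.single v (1 : ℤ)).sum

@[simp] theorem listDiv_nil : listDiv ([] : List (Place K F)) = 0 := rfl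

@[simp] theorem listDiv_cons (v : Place K F) (l : List (Place K F)) :
    listDiv (v :: l) = Finsupp.single v 1 + listDiv l := by
  simp [listDiv]

theorem listDiv_append (l l' : List (Place K F)) :
    listDiv (l ++ l') = listDiv l + listDiv l' := by
  simp [listDiv]

theorem listDiv_replicate (n : ℕ) (v : Place K F) :
    listDiv (List.replicate n v) = Finsupp.single v (n : ℤ) := by
  induction n with
  | zero => simp
  | succ n ih =>
    rw [List.replicate_succ, listDiv_cons, ih, ← Finsupp.single_add]
    push_cast; ring_nf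

/-- Every divisor is a difference of two list divisors. -/
theorem exists_lists (D : Divisor K F) :
    ∃ A B : List (Place K F), D = listDiv A - listDiv B := by
  induction D using Finsupp.induction with
  | zero => exact ⟨[], [], by simp⟩
  | single_add v n D _ _ ih =>
    obtain ⟨A, B, rfl⟩ := ih
    rcases le_total 0 n with hn | hn
    · refine ⟨List.replicate n.toNat v ++ A, B, ?_⟩
      rw [listDiv_append, listDiv_replicate, Int.toNat_of_nonneg hn]; abel
    · refine ⟨A, List.replicate (-n).toNat v ++ B, ?_⟩
      rw [listDiv_append, listDiv_replicate, Int.toNat_of_nonneg (by omega)]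
      rw [show Finsupp.single v (-n) = -Finsupp.single v n from Finsupp.single_neg _ _]
      abel

variable (c)

/-- The ideal pair of the effective divisor of a list of places. -/
noncomputable def listPair (l : List (Place K F)) : IdealPair R0 R1 R01 :=
  pairProd (l.map (X c))

@[simp] theorem listPair_nil : listPair c ([] : List (Place K F)) = IdealPair.top := rfl

@[simp] theorem listPair_cons (v : Place K F) (l : List (Place K F)) :
    listPair c (v :: l) = (X c v).mul (listPair c l) := rfl

variable {c}

theorem pairNeBot_X (H : CurveHyp c) (hcov : ∀ v : Place K F, Contains v R0 ∨ Contains v R1)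
    (v : Place K F) : PairNeBot (X c v) :=
  H.pairNeBot (isPointPair_of_isRatPointPair (isRatPointPair_X H hcov v))

theorem pairNeBot_listPair (H : CurveHyp c)
    (hcov : ∀ v : Place K F, Contains v R0 ∨ Contains v R1) (l : List (Place K F)) :
    PairNeBot (listPair c l) :=
  pairNeBot_pairProd fun P hP => by
    obtain ⟨v, -, rfl⟩ := List.mem_map.1 hP
    exact pairNeBot_X H hcov v

/-- `Ψ` of a list divisor is the inverse of the ideal class of its ideal pair. -/
theorem divMap_listDiv (H : CurveHyp c)
    (hcov : ∀ v : Place K F, Contains v R0 ∨ Contains v R1) (l : List (Place K F)) :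
    divMap c (listDiv l) = Additive.ofMul (idealCls c (listPair c l))⁻¹ := by
  induction l with
  | nil =>
    rw [listDiv_nil, map_zero, listPair_nil, idealCls_top, inv_one]; rfl
  | cons v l ih =>
    rw [listDiv_cons, map_add, ih, divMap_single, listPair_cons,
      idealCls_mul c (pairNeBot_X H hcov v) (pairNeBot_listPair H hcov l), mul_inv, zpow_one]
    rfl

/-! ### Surjectivity -/

theorem exists_place (H : CurveHyp c) : Nonempty (Place K F) := by
  obtain ⟨m, hm⟩ := Ideal.exists_maximal R0
  have hm0 : m ≠ ⊥ := Ring.ne_bot_of_isMaximal_of_not_isField hm H.notField0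
  exact ⟨pl (⟨m, hm.isPrime, hm0⟩ : HeightOneSpectrum R0)⟩

theorem exists_list_of_pointPairs (H : CurveHyp c) (l : List (IdealPair R0 R1 R01))
    (hl : ∀ P ∈ l, IsPointPair c P) : ∃ A : List (Place K F), l = A.map (X c) := by
  induction l with
  | nil => exact ⟨[], rfl⟩
  | cons P l ih =>
    obtain ⟨A, hA⟩ := ih fun Q hQ => hl Q (List.mem_cons_of_mem _ hQ)
    obtain ⟨v, hv⟩ := exists_X_eq (K := K) (F := F) H (hl P List.mem_cons_self)
    exact ⟨v :: A, by rw [List.map_cons, hv, hA]⟩

/-- **`Ψ` is surjective**: every line bundle on the two-chart curve is `O(D)`. -/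
theorem divMap_surjective (H : CurveHyp c)
    (hcov : ∀ v : Place K F, Contains v R0 ∨ Contains v R1) :
    Function.Surjective (divMap (K := K) (F := F) c) := by
  intro η'
  obtain ⟨η, rfl⟩ : ∃ η : PicQ c, Additive.ofMul η = η' := ⟨Additive.toMul η', rfl⟩
  obtain ⟨v0⟩ := exists_place (K := K) (F := F) H
  have hp0 : HasDeg c (ptCls c v0) 1 := hasDeg_ptCls H hcov v0
  set n : ℕ := (1 - chiQ c η).toNat with hn
  have hη : 1 ≤ chiQ c (ptCls c v0 ^ n * η) := by
    rw [(hp0.pow c n) η]
    have : 1 - chiQ c η ≤ (n : ℤ) := Int.self_le_toNat _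
    linarith
  obtain ⟨l, hl, hprod⟩ := H.exists_effective _ hη
  obtain ⟨A, rfl⟩ := exists_list_of_pointPairs (K := K) (F := F) H l
    fun P hP => isPointPair_of_isRatPointPair (hl P hP)
  refine ⟨listDiv A - Finsupp.single v0 (n : ℤ), ?_⟩
  rw [map_sub, divMap_listDiv H hcov, divMap_single]
  have h1 : idealCls c (listPair c A) = ((A.map (X c)).map (idealCls c)).prod :=
    idealCls_pairProd c fun P hP => by
      obtain ⟨v, -, rfl⟩ := List.mem_map.1 hP
      exact pairNeBot_X H hcov v
  rw [← h1] at hprod
  have h2 : η = (idealCls c (listPair c A))⁻¹ * (ptCls c v0 ^ n)⁻¹ := by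
    rw [← mul_inv]
    exact eq_inv_of_mul_eq_one_right (by rw [mul_assoc]; exact hprod)
  rw [h2, zpow_natCast]
  rfl

end Fermat.Agent.AV.PicBridge84.DivMap
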