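/-
Fermat/Agent/AV/PicBridge84/Kernel.lean  (helper84)

Programme AV (S26 + S27), brick F2 (`Pic0 K F = J_C(K)`), file 5:
the kernel of `Ψ : Divisor K F →+ Additive (PicQ c)` is the group of principal divisors, and the
resulting count of torsion classes.
-/
import Mathlib
import Fermat.Agent.AV.PicBridge84.DivMap

set_option autoImplicit false
set_option linter.unusedSectionVars false
set_option linter.style.haveILetI false

universe u

open AlgebraicCurve IsDedekindDomain FractionalIdeal
open Fermat.Agent.Jac Fermat.Agent.Jac.LineOps39 Fermat.Agent.Jac.AbelJacobi73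
open Fermat.Agent.AV.PicBridge84.Places Fermat.Agent.AV.PicBridge84.Chart
open Fermat.Agent.AV.PicBridge84.IsoCrit Fermat.Agent.AV.PicBridge84.DivMap
open scoped nonZeroDivisors

namespace Fermat.Agent.AV.PicBridge84.Kernel

section OneChart

variable {F : Type*} [Field F] {B : Type*} [CommRing B] [IsDedekindDomain B] [Algebra B F]
  [IsFractionRing B F]

/-- Nonzero fractional ideals of a Dedekind domain with the same multiplicities are equal. -/
theorem eq_of_count_eq {I J : FractionalIdeal B⁰ F} (hI : I ≠ 0) (hJ : J ≠ 0)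
    (h : ∀ w : HeightOneSpectrum B, count F w I = count F w J) : I = J := by
  rw [← finprod_heightOneSpectrum_factorization' F hI,
    ← finprod_heightOneSpectrum_factorization' F hJ]
  exact finprod_congr fun w => by rw [h w]

end OneChart

variable {K F : Type u} [Field K] [Field F] [Algebra K F]
variable {R0 R1 R01 : Type u} [CommRing R0] [CommRing R1] [CommRing R01]
  [Algebra K R0] [Algebra K R1] [Algebra K R01] [Algebra R0 R01] [Algebra R1 R01]
  [IsScalarTower K R0 R01] [IsScalarTower K R1 R01]
  [IsDedekindDomain R0] [IsDedekindDomain R1] [IsDomain R01]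
  [Algebra R0 F] [Algebra R1 F] [Algebra R01 F]
  [IsScalarTower R0 R01 F] [IsScalarTower R1 R01 F] [IsScalarTower K R0 F] [IsScalarTower K R1 F]
  [IsFractionRing R0 F] [IsFractionRing R1 F]

variable {c : TwoChart K R0 R1 R01}

open Classical in
theorem single_one_apply (v v' : Place K F) :
    (Finsupp.single v (1 : ℤ)) v' = if v' = v then 1 else 0 := by
  rw [Finsupp.single_apply]
  by_cases h : v = v'
  · rw [if_pos h, if_pos h.symm]
  · rw [if_neg h, if_neg (fun h' => h h'.symm)]

/-- Multiplicities of the ideal pair of a list divisor on chart 0. -/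
theorem count_listPair_I0 (H : CurveHyp c)
    (hcov : ∀ v : Place K F, Contains v R0 ∨ Contains v R1) (l : List (Place K F))
    (w : HeightOneSpectrum R0) :
    count F w ((listPair c l).I0 : FractionalIdeal R0⁰ F) = listDiv l (pl w) := by
  classical
  induction l with
  | nil =>
    rw [listPair_nil, listDiv_nil, top_I0, coeIdeal_top, count_one]; rfl
  | cons v l ih =>
    rw [listPair_cons, mul_I0, coeIdeal_mul, count_mul F w
        (coeIdeal_ne_zero.2 (pairNeBot_X H hcov v).ne0)
        (coeIdeal_ne_zero.2 (pairNeBot_listPair H hcov l).ne0), ih, count_X_I0, listDiv_cons,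
      Finsupp.add_apply, single_one_apply]

/-- Multiplicities of the ideal pair of a list divisor on chart 1. -/
theorem count_listPair_I1 (H : CurveHyp c)
    (hcov : ∀ v : Place K F, Contains v R0 ∨ Contains v R1) (l : List (Place K F))
    (w : HeightOneSpectrum R1) :
    count F w ((listPair c l).I1 : FractionalIdeal R1⁰ F) = listDiv l (pl w) := by
  classical
  induction l with
  | nil =>
    rw [listPair_nil, listDiv_nil, top_I1, coeIdeal_top, count_one]; rfl
  | cons v l ih =>
    rw [listPair_cons, mul_I1, coeIdeal_mul, count_mul F w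
        (coeIdeal_ne_zero.2 (pairNeBot_X H hcov v).ne1)
        (coeIdeal_ne_zero.2 (pairNeBot_listPair H hcov l).ne1), ih, count_X_I1, listDiv_cons,
      Finsupp.add_apply, single_one_apply]

/-- The scaling condition on one chart in terms of orders. -/
theorem scales_iff_ord {B : Type u} [CommRing B] [IsDedekindDomain B] [Algebra B F]
    [IsFractionRing B F] [Algebra K B] [IsScalarTower K B F] {f : F} (hf : f ≠ 0)
    {I J : Ideal B} (hI : I ≠ ⊥) (hJ : J ≠ ⊥) :
    Scales f I J ↔ ∀ w : HeightOneSpectrum B,
      (pl (K := K) w).ord f + count F w (I : FractionalIdeal B⁰ F) =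
        count F w (J : FractionalIdeal B⁰ F) := by
  have hs : spanSingleton B⁰ f ≠ 0 := by rwa [Ne, spanSingleton_eq_zero_iff]
  have hI' : (I : FractionalIdeal B⁰ F) ≠ 0 := coeIdeal_ne_zero.2 hI
  have hJ' : (J : FractionalIdeal B⁰ F) ≠ 0 := coeIdeal_ne_zero.2 hJ
  rw [scales_iff_fractionalIdeal]
  constructor
  · intro h w
    rw [ord_eq_count (K := K) w hf, ← count_mul F w hs hI', h]
  · intro h
    refine eq_of_count_eq (mul_ne_zero hs hI') hJ' fun w => ?_
    rw [count_mul F w hs hI', ← ord_eq_count (K := K) w hf, h w]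

/-- **Principal divisors are in the kernel of `Ψ`.** -/
theorem divMap_eq_zero_of_principal (H : CurveHyp c)
    (hcov : ∀ v : Place K F, Contains v R0 ∨ Contains v R1) {D : Divisor K F}
    (hD : D ∈ Divisor.principal (K := K) (F := F)) : divMap c D = 0 := by
  obtain ⟨g, hg, hDg⟩ := hD
  obtain ⟨A, B, rfl⟩ := exists_lists D
  have hA := pairNeBot_listPair (c := c) H hcov A
  have hB := pairNeBot_listPair (c := c) H hcov B
  have hf : g⁻¹ ≠ 0 := inv_ne_zero hg
  have h0 : Scales g⁻¹ (listPair c A).I0 (listPair c B).I0 := by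
    rw [scales_iff_ord (K := K) hf hA.ne0 hB.ne0]
    intro w
    rw [count_listPair_I0 H hcov, count_listPair_I0 H hcov, Place.ord_inv, ← hDg (pl w)]
    simp
  have h1 : Scales g⁻¹ (listPair c A).I1 (listPair c B).I1 := by
    rw [scales_iff_ord (K := K) hf hA.ne1 hB.ne1]
    intro w
    rw [count_listPair_I1 H hcov, count_listPair_I1 H hcov, Place.ord_inv, ← hDg (pl w)]
    simp
  have hcls : idealCls c (listPair c A) = idealCls c (listPair c B) := by
    rw [idealCls_of_neBot c hA, idealCls_of_neBot c hB]
    exact PicQ.mk_eq_of_iso c _ _ (isoOfScales c hf h0 h1)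
  rw [map_sub, divMap_listDiv H hcov, divMap_listDiv H hcov, hcls, sub_self]

/-- **The kernel of `Ψ` consists of principal divisors.** -/
theorem principal_of_divMap_eq_zero (H : CurveHyp c)
    (hcov : ∀ v : Place K F, Contains v R0 ∨ Contains v R1) {D : Divisor K F}
    (hD : divMap c D = 0) : D ∈ Divisor.principal (K := K) (F := F) := by
  obtain ⟨A, B, rfl⟩ := exists_lists D
  have hA := pairNeBot_listPair (c := c) H hcov A
  have hB := pairNeBot_listPair (c := c) H hcov B
  rw [map_sub, divMap_listDiv H hcov, divMap_listDiv H hcov, sub_eq_zero] at hD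
  have hcls : idealCls c (listPair c A) = idealCls c (listPair c B) :=
    inv_injective (Additive.ofMul.injective hD)
  rw [idealCls_of_neBot c hA, idealCls_of_neBot c hB, PicQ.mk_eq_mk_iff] at hcls
  obtain ⟨e⟩ := hcls
  obtain ⟨f, hf, s0, s1⟩ := exists_scales_of_iso (F := F) c hA e
  rw [scales_iff_ord (K := K) hf hA.ne0 hB.ne0] at s0
  rw [scales_iff_ord (K := K) hf hA.ne1 hB.ne1] at s1
  refine ⟨f⁻¹, inv_ne_zero hf, fun v => ?_⟩
  rw [Place.ord_inv, Finsupp.sub_apply]
  rcases hcov v with h | h
  · have := s0 (ctr v h)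
    rw [count_listPair_I0 H hcov, count_listPair_I0 H hcov, pl_ctr] at this
    omega
  · have := s1 (ctr v h)
    rw [count_listPair_I1 H hcov, count_listPair_I1 H hcov, pl_ctr] at this
    omega

theorem divMap_eq_zero_iff (H : CurveHyp c)
    (hcov : ∀ v : Place K F, Contains v R0 ∨ Contains v R1) {D : Divisor K F} :
    divMap c D = 0 ↔ D ∈ Divisor.principal (K := K) (F := F) :=
  ⟨principal_of_divMap_eq_zero H hcov, divMap_eq_zero_of_principal H hcov⟩

end Fermat.Agent.AV.PicBridge84.Kernel
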