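/-
Fermat/Agent/AV/PicBridge84/Torsion.lean  (helper84)

Programme AV (S26 + S27), brick F2 (`Pic0 K F = J_C(K)`), file 6 (end of the algebraic part F2a):
the injective homomorphism `Pic0 K F →+ Additive (PicQ c)` and the count
`#Pic0(K,F)[n] = #{η : PicQ c | η ^ n = 1}`.
-/
import Mathlib
import Fermat.Agent.AV.PicBridge84.Kernel

set_option autoImplicit false
set_option linter.unusedSectionVars false
set_option linter.style.haveILetI false

universe u

open AlgebraicCurve IsDedekindDomain
open Fermat.Agent.Jac Fermat.Agent.Jac.LineOps39 Fermat.Agent.Jac.AbelJacobi73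
open Fermat.Agent.AV.PicBridge84.Places Fermat.Agent.AV.PicBridge84.Chart
open Fermat.Agent.AV.PicBridge84.DivMap Fermat.Agent.AV.PicBridge84.Kernel

namespace Fermat.Agent.AV.PicBridge84.Torsion

variable {K F : Type u} [Field K] [Field F] [Algebra K F]
variable {R0 R1 R01 : Type u} [CommRing R0] [CommRing R1] [CommRing R01]
  [Algebra K R0] [Algebra K R1] [Algebra K R01] [Algebra R0 R01] [Algebra R1 R01]
  [IsScalarTower K R0 R01] [IsScalarTower K R1 R01]
  [IsDedekindDomain R0] [IsDedekindDomain R1] [IsDomain R01]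
  [Algebra R0 F] [Algebra R1 F] [Algebra R01 F]
  [IsScalarTower R0 R01 F] [IsScalarTower R1 R01 F] [IsScalarTower K R0 F] [IsScalarTower K R1 F]
  [IsFractionRing R0 F] [IsFractionRing R1 F]

variable {c : TwoChart K R0 R1 R01}

/-- The homomorphism `Pic0 K F →+ Additive (PicQ c)`, `[D] ↦ [O(D)]`. -/
noncomputable def pic0Map (H : CurveHyp c)
    (hcov : ∀ v : Place K F, Contains v R0 ∨ Contains v R1) : Pic0 K F →+ Additive (PicQ c) :=
  QuotientAddGroup.lift _ ((divMap c).comp (Divisor.degZero (K := K) (F := F)).subtype)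
    fun _ hD => divMap_eq_zero_of_principal H hcov (AddSubgroup.mem_addSubgroupOf.1 hD)

@[simp] theorem pic0Map_mk (H : CurveHyp c)
    (hcov : ∀ v : Place K F, Contains v R0 ∨ Contains v R1)
    (D : Divisor.degZero (K := K) (F := F)) :
    pic0Map H hcov (Pic0.mk D) = divMap c (D : Divisor K F) := rfl

theorem pic0Map_injective (H : CurveHyp c)
    (hcov : ∀ v : Place K F, Contains v R0 ∨ Contains v R1) :
    Function.Injective (pic0Map (K := K) (F := F) H hcov) := by
  rw [injective_iff_map_eq_zero]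
  intro x hx
  obtain ⟨D, rfl⟩ := Pic0.mk_surjective x
  rw [pic0Map_mk] at hx
  exact (QuotientAddGroup.eq_zero_iff _).2
    (AddSubgroup.mem_addSubgroupOf.2 (principal_of_divMap_eq_zero H hcov hx))

theorem hasDeg_unique {ξ : PicQ c} {d d' : ℤ} (h : HasDeg c ξ d) (h' : HasDeg c ξ d') : d = d' := by
  have := h.chiQ_eq c
  have := h'.chiQ_eq c
  omega

/-- The range of `pic0Map` is the group of classes of degree zero. -/
theorem exists_pic0Map_eq (H : CurveHyp c)
    (hcov : ∀ v : Place K F, Contains v R0 ∨ Contains v R1) (hdeg : ∀ v : Place K F, v.deg = 1)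
    {η : PicQ c} (hη : HasDeg c η 0) : ∃ x : Pic0 K F, pic0Map H hcov x = Additive.ofMul η := by
  obtain ⟨D, hD⟩ := divMap_surjective (K := K) (F := F) H hcov (Additive.ofMul η)
  have h1 := hasDeg_divMap H hcov hdeg D
  rw [hD, toMul_ofMul] at h1
  have h0 : Divisor.degree D = 0 := hasDeg_unique h1 hη
  exact ⟨Pic0.mk ⟨D, h0⟩, by rw [pic0Map_mk]; exact hD⟩

theorem hasDeg_pic0Map (H : CurveHyp c)
    (hcov : ∀ v : Place K F, Contains v R0 ∨ Contains v R1) (hdeg : ∀ v : Place K F, v.deg = 1)
    (x : Pic0 K F) : HasDeg c (Additive.toMul (pic0Map H hcov x)) 0 := by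
  obtain ⟨D, rfl⟩ := Pic0.mk_surjective x
  rw [pic0Map_mk]
  have := hasDeg_divMap H hcov hdeg (D : Divisor K F)
  rwa [show Divisor.degree (D : Divisor K F) = 0 from D.2] at this

/-- A torsion class has degree zero. -/
theorem hasDeg_zero_of_pow_eq_one (H : CurveHyp c)
    (hcov : ∀ v : Place K F, Contains v R0 ∨ Contains v R1) {η : PicQ c} {n : ℕ} (hn : 0 < n)
    (hη : η ^ n = 1) : HasDeg c η 0 := by
  obtain ⟨v0⟩ := exists_place (K := K) (F := F) H
  obtain ⟨d, hd⟩ := H.exists_hasDeg (isRatPointPair_X H hcov v0) η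
  have h1 := hd.pow c n
  rw [hη] at h1
  have h2 : (n : ℤ) * d = 0 := hasDeg_unique h1 (hasDeg_one c)
  have h3 : d = 0 := by
    rcases mul_eq_zero.1 h2 with h | h
    · exact absurd h (by exact_mod_cast hn.ne')
    · exact h
  rwa [h3] at hd

/-- **F2a, final count**: the `n`-torsion of `Pic0 K F` is in bijection with the `n`-torsion of
the Picard group `PicQ c` of the two-chart curve. -/
theorem card_torsion_eq (H : CurveHyp c)
    (hcov : ∀ v : Place K F, Contains v R0 ∨ Contains v R1) (hdeg : ∀ v : Place K F, v.deg = 1)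
    {n : ℕ} (hn : 0 < n) :
    Nat.card (Pic0.torsion K F n) = Nat.card {η : PicQ c // η ^ n = 1} := by
  have key : ∀ x : Pic0 K F, x ∈ Pic0.torsion K F n ↔
      Additive.toMul (pic0Map H hcov x) ^ n = 1 := by
    intro x
    rw [Pic0.mem_torsion, ← (pic0Map_injective H hcov).eq_iff, map_zero, map_zsmul,
      natCast_zsmul]
    constructor
    · intro h
      have := congrArg Additive.toMul h
      rwa [toMul_nsmul, toMul_zero] at this
    · intro h
      apply Additive.toMul.injective
      rwa [toMul_nsmul, toMul_zero]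
  refine Nat.card_congr (Equiv.ofBijective
    (fun x : Pic0.torsion K F n => ⟨Additive.toMul (pic0Map H hcov x.1), (key x.1).1 x.2⟩) ⟨?_, ?_⟩)
  · intro x y hxy
    have h1 : Additive.toMul (pic0Map H hcov x.1) = Additive.toMul (pic0Map H hcov y.1) :=
      congrArg Subtype.val hxy
    exact Subtype.ext (pic0Map_injective H hcov (Additive.toMul.injective h1))
  · rintro ⟨η, hη⟩
    obtain ⟨x, hx⟩ := exists_pic0Map_eq H hcov hdeg (hasDeg_zero_of_pow_eq_one H hcov hn hη)
    have hx' : Additive.toMul (pic0Map H hcov x) = η := by rw [hx, toMul_ofMul]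
    exact ⟨⟨x, (key x).2 (by rw [hx']; exact hη)⟩, Subtype.ext hx'⟩

end Fermat.Agent.AV.PicBridge84.Torsion
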