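/-
Fermat/Agent/AV/PicBridge84/Model.lean  (helper84)

Programme AV (S26 + S27), brick F2 (`Pic0 K F = J_C(K)`), file 8 = F2c, the glue:
for a model curve `M : F1Model15.Model K F` of the function field `F / K` (helper15's interface),
the rings `K ⊗[K] M.cc.B_j` of the two-chart ring `M.cc.chartA K` become subrings of `F` through
`M.e_j`, the algebraic half F2a (`Torsion.card_torsion_eq`) applies to them, and together with the
scheme side F2b (`SchemeSide.card_torsionPoint_eq`) this gives

  `Nat.card (Pic0.torsion K F n) = Nat.card {x : J(K) // (law h).IsTorsionPoint (𝟙 _) n x}`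

for every scheme `D'` representing THE cut `cut41 D` of the relative Picard functor of `M.c`.
-/
import Mathlib
import Fermat.Agent.AV.F1Model15.Interface
import Fermat.Agent.AV.PicBridge84.Torsion
import Fermat.Agent.AV.PicBridge84.Scheme

set_option autoImplicit false
set_option linter.unusedSectionVars false
set_option linter.style.haveILetI false

noncomputable section

universe u

open CategoryTheory CategoryTheory.Limits AlgebraicGeometry AlgebraicGeometry.RelPicard
  NeronModelInfra GoodReductionJacobian TensorProduct AlgebraicCurve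

namespace Fermat.Agent.AV.PicBridge84.ModelGlue

open scoped Fermat.Agent.Jac.BaseChange75
open Fermat.Agent.Jac Fermat.Agent.Jac.AbelJacobi73 Fermat.Agent.Jac.BridgeK84
  Fermat.Agent.Jac.FinalWiring41 Fermat.Agent.AV.F1Model15
  Fermat.Agent.AV.PicBridge84.Places Fermat.Agent.AV.PicBridge84.SchemeSide

/-! ### Covering of the places by the two chart algebras -/

section Covering

variable {K F : Type u} [Field K] [Field F] [Algebra K F]

/-- The valuation ring of a place, as a `K`-subalgebra of `F`. -/
def placeSubalgebra (v : Place K F) : Subalgebra K F :=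
  { v.toValuationSubring.toSubring with
    algebraMap_mem' := v.algebraMap_mem' }

theorem mem_placeSubalgebra (v : Place K F) (f : F) :
    f ∈ placeSubalgebra v ↔ f ∈ v.toValuationSubring := Iff.rfl

/-- A place whose valuation ring contains `x` contains the integral closure of `K[x]`. -/
theorem mem_of_isIntegral_adjoin (v : Place K F) {x : F} (hx : x ∈ v.toValuationSubring) {f : F}
    (hf : IsIntegral (Algebra.adjoin K {x}) f) : f ∈ v.toValuationSubring := by
  refine Fermat.Agent.X0.FFDedekind.mem_of_isIntegral_of_algebraMap_mem v (fun a => ?_) hf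
  have hle : Algebra.adjoin K {x} ≤ placeSubalgebra v :=
    Algebra.adjoin_le (Set.singleton_subset_iff.2 hx)
  exact hle a.2

/-- **Every place is centred on one of the two charts.** -/
theorem covering (alg : ChartAlg K F) (v : Place K F) :
    (∀ b : alg.B0, (b : F) ∈ v.toValuationSubring) ∨
      (∀ b : alg.B1, (b : F) ∈ v.toValuationSubring) := by
  rcases v.toValuationSubring.mem_or_inv_mem alg.t with ht | ht
  · exact Or.inl fun b => mem_of_isIntegral_adjoin v ht ((alg.mem0_iff b).1 b.2)
  · exact Or.inr fun b => mem_of_isIntegral_adjoin v ht ((alg.mem1_iff b).1 b.2)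

end Covering

/-! ### The tensor rings of the model as subrings of the function field -/

section Model

variable {K F : Type u} [Field K] [Field F] [Algebra K F] (M : Model K F)

/-- `B0 ≃ K ⊗[K] cc.B0`. -/
def E0 : M.alg.B0 ≃ₐ[K] K ⊗[K] M.cc.B0 :=
  M.e0.trans (Algebra.TensorProduct.lid K M.cc.B0).symm

/-- `B1 ≃ K ⊗[K] cc.B1`. -/
def E1 : M.alg.B1 ≃ₐ[K] K ⊗[K] M.cc.B1 :=
  M.e1.trans (Algebra.TensorProduct.lid K M.cc.B1).symm

/-- `B01 ≃ K ⊗[K] cc.B01`. -/
def E01 : M.alg.B01 ≃ₐ[K] K ⊗[K] M.cc.B01 :=
  M.e01.trans (Algebra.TensorProduct.lid K M.cc.B01).symm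

theorem E0_symm_tmul (b : M.cc.B0) : (E0 M).symm (1 ⊗ₜ[K] b) = M.e0.symm b := by
  simp [E0]

theorem E1_symm_tmul (b : M.cc.B1) : (E1 M).symm (1 ⊗ₜ[K] b) = M.e1.symm b := by
  simp [E1]

theorem E01_symm_tmul (b : M.cc.B01) : (E01 M).symm (1 ⊗ₜ[K] b) = M.e01.symm b := by
  simp [E01]

theorem exists_tmul {B : Type u} [CommRing B] [Algebra K B] (x : K ⊗[K] B) :
    ∃ b : B, x = 1 ⊗ₜ[K] b :=
  ⟨Algebra.TensorProduct.lid K B x, by
    rw [← Algebra.TensorProduct.lid_symm_apply, AlgEquiv.symm_apply_apply]⟩

/-- `K ⊗[K] cc.B0 → F` (activate with `letI`/local instance). -/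
@[reducible] def algF0 : Algebra (K ⊗[K] M.cc.B0) F :=
  ((algebraMap M.alg.B0 F).comp (E0 M).toRingEquiv.symm.toRingHom).toAlgebra

/-- `K ⊗[K] cc.B1 → F`. -/
@[reducible] def algF1 : Algebra (K ⊗[K] M.cc.B1) F :=
  ((algebraMap M.alg.B1 F).comp (E1 M).toRingEquiv.symm.toRingHom).toAlgebra

/-- `K ⊗[K] cc.B01 → F`. -/
@[reducible] def algF01 : Algebra (K ⊗[K] M.cc.B01) F :=
  ((algebraMap M.alg.B01 F).comp (E01 M).toRingEquiv.symm.toRingHom).toAlgebra

attribute [local instance] algF0 algF1 algF01

theorem algebraMap0_apply (x : K ⊗[K] M.cc.B0) :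
    algebraMap (K ⊗[K] M.cc.B0) F x = ((E0 M).symm x : F) := rfl

theorem algebraMap1_apply (x : K ⊗[K] M.cc.B1) :
    algebraMap (K ⊗[K] M.cc.B1) F x = ((E1 M).symm x : F) := rfl

theorem algebraMap01_apply (x : K ⊗[K] M.cc.B01) :
    algebraMap (K ⊗[K] M.cc.B01) F x = ((E01 M).symm x : F) := rfl

theorem isFractionRing0 : IsFractionRing (K ⊗[K] M.cc.B0) F :=
  haveI := M.alg.frac0
  (IsFractionRing.isFractionRing_iff_of_base_ringEquiv F (E0 M).toRingEquiv).1 inferInstance

theorem isFractionRing1 : IsFractionRing (K ⊗[K] M.cc.B1) F :=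
  haveI := M.alg.frac1
  (IsFractionRing.isFractionRing_iff_of_base_ringEquiv F (E1 M).toRingEquiv).1 inferInstance

theorem tower_K0 : IsScalarTower K (K ⊗[K] M.cc.B0) F :=
  IsScalarTower.of_algebraMap_eq (R := K) (S := K ⊗[K] M.cc.B0) (A := F) fun x => by
    rw [algebraMap0_apply, AlgEquiv.commutes]
    rfl

theorem tower_K1 : IsScalarTower K (K ⊗[K] M.cc.B1) F :=
  IsScalarTower.of_algebraMap_eq (R := K) (S := K ⊗[K] M.cc.B1) (A := F) fun x => by
    rw [algebraMap1_apply, AlgEquiv.commutes]
    rfl

theorem tower_0_01 : IsScalarTower (K ⊗[K] M.cc.B0) (K ⊗[K] M.cc.B01) F :=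
  IsScalarTower.of_algebraMap_eq (R := K ⊗[K] M.cc.B0) (S := K ⊗[K] M.cc.B01) (A := F) fun x => by
    obtain ⟨b, rfl⟩ := exists_tmul x
    rw [algebraMap0_apply, algebraMap01_apply, BaseChange75.algebraMap_right_tmul,
      E0_symm_tmul, E01_symm_tmul]
    have h := M.e01_res0 (M.e0.symm b)
    rw [AlgEquiv.apply_symm_apply] at h
    rw [← h, AlgEquiv.symm_apply_apply]
    rfl

theorem tower_1_01 : IsScalarTower (K ⊗[K] M.cc.B1) (K ⊗[K] M.cc.B01) F :=
  IsScalarTower.of_algebraMap_eq (R := K ⊗[K] M.cc.B1) (S := K ⊗[K] M.cc.B01) (A := F) fun x => by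
    obtain ⟨b, rfl⟩ := exists_tmul x
    rw [algebraMap1_apply, algebraMap01_apply, BaseChange75.algebraMap_right_tmul,
      E1_symm_tmul, E01_symm_tmul]
    have h := M.e01_res1 (M.e1.symm b)
    rw [AlgEquiv.apply_symm_apply] at h
    rw [← h, AlgEquiv.symm_apply_apply]
    rfl

/-- Every place of `F / K` is centred on one of the two tensor charts. -/
theorem covering_model (v : Place K F) :
    Contains v (K ⊗[K] M.cc.B0) ∨ Contains v (K ⊗[K] M.cc.B1) := by
  rcases covering M.alg v with h | h
  · exact Or.inl fun x => h ((E0 M).symm x)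
  · exact Or.inr fun x => h ((E1 M).symm x)

/-- **F2a for the model**: the `n`-torsion of `Pic0 K F` and the `n`-torsion of the Picard group
of the two-chart ring of the model. -/
theorem card_torsion_eq_picQ [IsAlgClosed K] (hdeg : ∀ v : Place K F, v.deg = 1) {n : ℕ}
    (hn : 0 < n) :
    Nat.card (Pic0.torsion K F n) = Nat.card {η : PicQ (M.cc.chartA K) // η ^ n = 1} := by
  haveI := isDedekindDomain_KB0 M.cc K Function.bijective_id
  haveI := isDedekindDomain_KB1 M.cc K Function.bijective_id
  haveI := isDomain_KB01 M.cc K Function.bijective_id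
  haveI := isFractionRing0 M
  haveI := isFractionRing1 M
  haveI := tower_K0 M
  haveI := tower_K1 M
  haveI := tower_0_01 M
  haveI := tower_1_01 M
  exact Torsion.card_torsion_eq (curveHypK M.cc K Function.bijective_id) (covering_model M) hdeg hn

/-- **F2 (brick 419).**  For a model curve `M` of the function field `F / K` and a scheme `D'`
representing THE cut of the relative Picard functor of `M.c` (the Jacobian of the S25 stack, with
its group law `SchemeSide.law h`): the `n`-torsion of `Pic0 K F` and the `n`-torsion `K`-points of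
the Jacobian have the same cardinality. -/
theorem card_torsion_eq_card_torsionPoint [IsAlgClosed K] [IsCurveOver K F]
    (D : AffineDictionary M.cc) {D' : RelativePic0Designation K M.c}
    (h : haveI := M.isIntegral; RepresentsRelSubPic M.c M.ε (cut41 D) D') {n : ℕ} (hn : 0 < n) :
    haveI := M.isIntegral
    Nat.card (Pic0.torsion K F n) =
      Nat.card {x : Pt D' // (law h).IsTorsionPoint (𝟙 _) n x} := by
  haveI := M.isIntegral
  rw [card_torsionPoint_eq h hn]
  exact card_torsion_eq_picQ M (fun v => IsCurveOver.deg_eq_one_of_isAlgClosed v) hn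

end Model

end Fermat.Agent.AV.PicBridge84.ModelGlue

end
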