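/-
Fermat/Agent/AV/PicBridge84/Iso.lean  (helper84)

Programme AV (S26 + S27) / MW (S17), brick F2 complement: **the group isomorphism
`Pic0 K F ≃ J(K)`** for a model curve `M : F1Model15.Model K F` and a scheme `D'` representing
THE cut of the relative Picard functor of `M.c`, with the group law `SchemeSide.law h`.

* `pic0MapM M : Pic0 K F →+ Additive (PicQ (M.cc.chartA K))` (injective, image = `χ = χ(O)`);
* `β M h : Pic0 K F → Pt D'` with `toPic h (β M h x) = pic0MapM M x`, bijective, and
  `β_add`, `β_zero`, `β_neg`, `β_nsmul` (compatibility with `SchemeSide.law h`);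
* `equiv M h : Pic0 K F ≃ Pt D'`.
-/
import Mathlib
import Fermat.Agent.AV.PicBridge84.Model

set_option autoImplicit false
set_option linter.unusedSectionVars false
set_option linter.style.haveILetI false

noncomputable section

universe u

open CategoryTheory CategoryTheory.Limits AlgebraicGeometry AlgebraicGeometry.RelPicard
  NeronModelInfra GoodReductionJacobian TensorProduct AlgebraicCurve

namespace Fermat.Agent.AV.PicBridge84.Iso

open scoped Fermat.Agent.Jac.BaseChange75
open Fermat.Agent.Jac Fermat.Agent.Jac.AbelJacobi73 Fermat.Agent.Jac.BridgeK84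
  Fermat.Agent.Jac.FinalWiring41 Fermat.Agent.AV.F1Model15
  Fermat.Agent.AV.PicBridge84.Places Fermat.Agent.AV.PicBridge84.SchemeSide
  Fermat.Agent.AV.PicBridge84.ModelGlue

variable {K F : Type u} [Field K] [Field F] [Algebra K F] [IsAlgClosed K] (M : Model K F)

attribute [local instance] algF0 algF1 algF01

theorem ded0 : IsDedekindDomain (K ⊗[K] M.cc.B0) :=
  isDedekindDomain_KB0 M.cc K Function.bijective_id

theorem ded1 : IsDedekindDomain (K ⊗[K] M.cc.B1) :=
  isDedekindDomain_KB1 M.cc K Function.bijective_id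

theorem dom01 : IsDomain (K ⊗[K] M.cc.B01) :=
  isDomain_KB01 M.cc K Function.bijective_id

attribute [local instance] ded0 ded1 dom01 isFractionRing0 isFractionRing1 tower_K0 tower_K1
  tower_0_01 tower_1_01

/-- The hypotheses `CurveHyp` for the two-chart ring of the model. -/
theorem curveHypM : CurveHyp (M.cc.chartA K) :=
  curveHypK M.cc K Function.bijective_id

/-- `Pic0 K F →+ PicQ` of the two-chart ring of the model, `[D] ↦ [O(D)]`. -/
def pic0MapM : Pic0 K F →+ Additive (PicQ (M.cc.chartA K)) :=
  Torsion.pic0Map (curveHypM M) (covering_model M)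

theorem pic0MapM_injective : Function.Injective (pic0MapM M) :=
  Torsion.pic0Map_injective (curveHypM M) (covering_model M)

theorem chiQ_pic0MapM [IsCurveOver K F] (x : Pic0 K F) :
    chiQ (M.cc.chartA K) (Additive.toMul (pic0MapM M x)) = chiQ (M.cc.chartA K) 1 := by
  have h := (Torsion.hasDeg_pic0Map (curveHypM M) (covering_model M)
    (fun v => IsCurveOver.deg_eq_one_of_isAlgClosed v) x).chiQ_eq (M.cc.chartA K)
  rw [add_zero] at h
  exact h

theorem exists_pic0MapM_eq [IsCurveOver K F] (η : PicQ (M.cc.chartA K))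
    (hη : chiQ (M.cc.chartA K) η = chiQ (M.cc.chartA K) 1) :
    ∃ x : Pic0 K F, pic0MapM M x = Additive.ofMul η := by
  obtain ⟨d, hd⟩ := (curveHypM M).exists_hasDeg (CurveHyp80.isRatPointPair_P0K M.cc K) η
  have h1 := hd.chiQ_eq (M.cc.chartA K)
  have hd0 : d = 0 := by linarith
  rw [hd0] at hd
  exact Torsion.exists_pic0Map_eq (curveHypM M) (covering_model M)
    (fun v => IsCurveOver.deg_eq_one_of_isAlgClosed v) hd

section Jacobian

variable [IsCurveOver K F] {D : AffineDictionary M.cc} {D' : RelativePic0Designation K M.c}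
  (h : haveI := M.isIntegral; RepresentsRelSubPic M.c M.ε (cut41 D) D')

/-- **The bridge** `Pic0 K F → J(K)`. -/
def β (x : Pic0 K F) : Pt D' :=
  haveI := M.isIntegral
  Classical.choose (exists_toPic_eq h _ (chiQ_pic0MapM M x))

theorem toPic_β (x : Pic0 K F) :
    haveI := M.isIntegral
    toPic h (β M h x) = Additive.toMul (pic0MapM M x) :=
  haveI := M.isIntegral
  Classical.choose_spec (exists_toPic_eq h _ (chiQ_pic0MapM M x))

theorem β_injective : Function.Injective (β M h) := by
  haveI := M.isIntegral
  intro x y hxy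
  have h1 := congrArg (toPic h) hxy
  rw [toPic_β, toPic_β] at h1
  exact pic0MapM_injective M (Additive.toMul.injective h1)

theorem β_surjective : Function.Surjective (β M h) := by
  haveI := M.isIntegral
  intro p
  obtain ⟨x, hx⟩ := exists_pic0MapM_eq M (toPic h p) (chiQ_toPic h p)
  refine ⟨x, toPic_injective h ?_⟩
  rw [toPic_β, hx, toMul_ofMul]

/-- **`Pic0 K F ≃ J(K)`.** -/
def equiv : Pic0 K F ≃ Pt D' := Equiv.ofBijective (β M h) ⟨β_injective M h, β_surjective M h⟩

theorem β_add (x a : Pic0 K F) :
    haveI := M.isIntegral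
    β M h (x + a) = (law h).mul (𝟙 _) (β M h x) (β M h a) := by
  haveI := M.isIntegral
  apply toPic_injective h
  rw [toPic_law_mul, toPic_β, toPic_β, toPic_β, map_add, toMul_add]

theorem β_zero :
    haveI := M.isIntegral
    β M h 0 = (law h).one (𝟙 _) := by
  haveI := M.isIntegral
  apply toPic_injective h
  rw [toPic_law_one, toPic_β, map_zero, toMul_zero]

theorem β_nsmul (n : ℕ) (x : Pic0 K F) :
    haveI := M.isIntegral
    β M h (n • x) = (law h).nsmul (𝟙 _) n (β M h x) := by
  haveI := M.isIntegral
  apply toPic_injective h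
  rw [toPic_nsmul, toPic_β, toPic_β, map_nsmul, toMul_nsmul]

theorem toPic_law_inv (p : Pt D') :
    haveI := M.isIntegral
    toPic h ((law h).inv (𝟙 _) p) = (toPic h p)⁻¹ := by
  haveI := M.isIntegral
  apply eq_inv_of_mul_eq_one_left
  rw [← toPic_law_mul, (law h).inv_mul_cancel, toPic_law_one]

theorem β_neg (x : Pic0 K F) :
    haveI := M.isIntegral
    β M h (-x) = (law h).inv (𝟙 _) (β M h x) := by
  haveI := M.isIntegral
  apply toPic_injective h
  rw [toPic_law_inv, toPic_β, toPic_β, map_neg, toMul_neg]

end Jacobian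

end Fermat.Agent.AV.PicBridge84.Iso

end
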